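/-
Row 38 (S44), package C = `Fermat.Agent.S44.Stmt_FreyFiniteAtP` (helper33).
Plan: NOTES/plan/L_S44_C.md.  Elementary route (no Tate curve): on the S05 model
`y² = x³ + a x² + b x` (`|a| = 1`, `|b| ≤ |p|²`, `β² = a`) the function
`f(P) = (y - β x) / (y + β x)` is multiplicative on `E₀` up to `1 + O(b)`.

This file: exact statements of the small independent leaves (valuation theory / arithmetic).
Convention `|x| := v x`.
-/
import Mathlib

set_option autoImplicit false

namespace Fermat.Agent.S44.C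

section Val

/-- **V1** (root near): every `h` is as close to some `p`-th root of unity as `h ^ p` is to `1`,
up to the factor `|p|`: `|h - ζ| · |p| ≤ |h ^ p - 1|`. -/
def Stmt_V1 : Prop :=
  ∀ (L : Type) [Field L] [IsAlgClosed L] [CharZero L] (Γ₀ : Type)
    [LinearOrderedCommGroupWithZero Γ₀] (v : Valuation L Γ₀) (p : ℕ), p.Prime →
    ∀ h : L, ∃ ζ : L, ζ ^ p = 1 ∧ v (h - ζ) * v (p : L) ≤ v (h ^ p - 1)

/-- **V2** (binomial): if `|δ| < 1` and `|δ| ^ (p - 1) < |p|` then `|(1 + δ) ^ p - 1| = |p| |δ|`. -/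
def Stmt_V2 : Prop :=
  ∀ (L : Type) [Field L] (Γ₀ : Type) [LinearOrderedCommGroupWithZero Γ₀] (v : Valuation L Γ₀)
    (p : ℕ), p.Prime → ∀ δ : L, v δ < 1 → v δ ^ (p - 1) < v (p : L) →
      v ((1 + δ) ^ p - 1) = v (p : L) * v δ

/-- **V3** (units mod `p²`): an integer prime to `p` is `≡ t ^ p (1 + p) ^ n` mod `p²`. -/
def Stmt_V3 : Prop :=
  ∀ (p : ℕ), p.Prime → ∀ t : ℤ, ¬ (p : ℤ) ∣ t →
    ∃ n : ℕ, (p : ℤ) ^ 2 ∣ t - t ^ p * (1 + (p : ℤ)) ^ n

end Val

section RatLim

variable {L : Type*} [Field L] [Algebra ℚ L]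

/-- `z` is a `p`-adic limit of rational numbers (w.r.t. the valuation subring `A`, `|p| < 1`). -/
def IsRatLim (A : ValuationSubring L) (p : ℕ) (z : L) : Prop :=
  ∀ k : ℕ, ∃ r : ℚ, A.valuation (z - algebraMap ℚ L r) ≤ A.valuation (p : L) ^ k

end RatLim

/-- **F1** (the `p`-adic closure of `ℚ` is a subfield): sums, products, negatives and inverses of
limits of rationals are limits of rationals.  (`L` algebraic over `ℚ`, so that the valuation has
rank one: `BAD/H82_Arch.lean`.) -/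
def Stmt_F1 : Prop :=
  ∀ (L : Type) [Field L] [Algebra ℚ L] [CharZero L], Algebra.IsAlgebraic ℚ L →
  ∀ (A : ValuationSubring L) (p : ℕ), p.Prime → A.valuation (p : L) < 1 →
    ∃ F : Subfield L, ∀ z : L, z ∈ F ↔ IsRatLim A p z

/-- **F2** (limits of rationals are fixed by valuation preserving automorphisms). -/
def Stmt_F2 : Prop :=
  ∀ (L : Type) [Field L] [Algebra ℚ L] [CharZero L], Algebra.IsAlgebraic ℚ L →
  ∀ (A : ValuationSubring L) (p : ℕ), p.Prime → A.valuation (p : L) < 1 →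
  ∀ σ : L ≃ₐ[ℚ] L, (∀ x, A.valuation (σ x) = A.valuation x) →
    ∀ z : L, IsRatLim A p z → σ z = z

/-- **F3** (square roots, `p` odd): if `d` is a limit of rationals, `|d - 1| < 1`, `η² = d` and
`|η - 1| < 1`, then `η` is a limit of rationals. -/
def Stmt_F3 : Prop :=
  ∀ (L : Type) [Field L] [Algebra ℚ L] [CharZero L]
    (A : ValuationSubring L) (p : ℕ), p.Prime → p ≠ 2 → A.valuation (p : L) < 1 →
  ∀ d η : L, IsRatLim A p d → A.valuation (d - 1) < 1 → η ^ 2 = d → A.valuation (η - 1) < 1 →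
    IsRatLim A p η

/-- **F4** (residues): a limit of rationals which is a unit of `A` is congruent mod `p²` to an
integer prime to `p`. -/
def Stmt_F4 : Prop :=
  ∀ (L : Type) [Field L] [Algebra ℚ L] [CharZero L]
    (A : ValuationSubring L) (p : ℕ), p.Prime → A.valuation (p : L) < 1 →
  ∀ w : L, IsRatLim A p w → A.valuation w = 1 →
    ∃ t : ℤ, ¬ (p : ℤ) ∣ t ∧ A.valuation (w - (t : L)) ≤ A.valuation (p : L) ^ 2

end Fermat.Agent.S44.C
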