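/-
Row 38 (S44), package C, leaves V1, V2, V3 of `S44/C/Defs.lean` (helper1).
-/
import Fermat.Agent.S44.C.Defs

set_option autoImplicit false

namespace Fermat.Agent.S44.C.H01

open Polynomial

/-! ### Generalities on valuations -/

section Gen

variable {L : Type} [Field L] {Γ₀ : Type} [LinearOrderedCommGroupWithZero Γ₀] (v : Valuation L Γ₀)

theorem val_natCast_le_one (n : ℕ) : v (n : L) ≤ 1 := by
  induction n with
  | zero => simp
  | succ n ih =>
    rw [Nat.cast_succ]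
    exact (v.map_add _ _).trans (max_le ih (by rw [v.map_one]))

theorem val_eq_one_of_pow_eq_one {x : L} {n : ℕ} (hn : n ≠ 0) (hx : x ^ n = 1) : v x = 1 := by
  have h1 : v x ^ n = 1 := by rw [← v.map_pow, hx, v.map_one]
  rcases lt_trichotomy (v x) 1 with h | h | h
  · exact absurd h1 (pow_lt_one₀ zero_le h hn).ne
  · exact h
  · exact absurd h1 (one_lt_pow₀ h hn).ne'

end Gen

/-! ### V3 -/

theorem one_add_pow_eq (p : ℤ) (n : ℕ) : ∃ c : ℤ, (1 + p) ^ n = 1 + n * p + p ^ 2 * c := by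
  induction n with
  | zero => exact ⟨0, by simp⟩
  | succ n ih =>
    obtain ⟨c, hc⟩ := ih
    refine ⟨n + c + p * c, ?_⟩
    rw [pow_succ, hc]
    push_cast
    ring

/-- **V3.** -/
theorem stmt_V3 : Stmt_V3 := by
  intro p hp t ht
  have : Fact p.Prime := ⟨hp⟩
  -- `t ^ (p - 1) = 1 + p s`
  have h1 : (t : ZMod p) ^ (p - 1) = 1 := by
    apply ZMod.pow_card_sub_one_eq_one
    intro h0
    exact ht ((ZMod.intCast_zmod_eq_zero_iff_dvd t p).1 h0)
  have h2 : (p : ℤ) ∣ t ^ (p - 1) - 1 := by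
    rw [← ZMod.intCast_zmod_eq_zero_iff_dvd]
    push_cast
    rw [h1, sub_self]
  obtain ⟨s, hs⟩ := h2
  -- choose `n ≡ -s mod p`
  obtain ⟨n, hn⟩ : ∃ n : ℕ, (p : ℤ) ∣ s + n := by
    refine ⟨((-s) % p).toNat, ?_⟩
    have hp0 : (p : ℤ) ≠ 0 := by exact_mod_cast hp.ne_zero
    have hnn : 0 ≤ (-s) % (p : ℤ) := Int.emod_nonneg _ hp0
    rw [Int.toNat_of_nonneg hnn]
    have h3 : (p : ℤ) ∣ (-s) - (-s) % p := Int.dvd_self_sub_emod
    have h4 : s + (-s) % (p : ℤ) = -((-s) - (-s) % p) := by ring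
    rw [h4]
    exact (dvd_neg).2 h3
  obtain ⟨m, hm⟩ := hn
  obtain ⟨c, hc⟩ := one_add_pow_eq (p : ℤ) n
  refine ⟨n, ?_⟩
  have hpp : t ^ p = t * t ^ (p - 1) := by
    rw [← pow_succ', Nat.sub_add_cancel hp.one_le]
  have h5 : t ^ (p - 1) = 1 + p * s := by linarith
  refine ⟨-(t * (m + s * n + c + p * s * c)), ?_⟩
  rw [hpp, h5, hc]
  have hm' : (n : ℤ) = p * m - s := by linarith
  rw [hm']
  ring

/-! ### V2 -/

/-- **V2.** -/
theorem stmt_V2 : Stmt_V2 := by
  intro L _ Γ₀ _ v p hp δ hδ1 hδp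
  by_cases hδ0 : δ = 0
  · subst hδ0
    simp
  have hvδ : 0 < v δ := by
    rw [pos_iff_ne_zero, Ne, v.zero_iff]
    exact hδ0
  have hvp : 0 < v (p : L) := lt_of_le_of_lt zero_le hδp
  have hpos : 0 < v (p : L) * v δ := mul_pos hvp hvδ
  -- expansion
  have hexp : (1 + δ) ^ p - 1 = (p : L) * δ +
      ∑ m ∈ Finset.range (p - 1), δ ^ (m + 2) * (p.choose (m + 2) : L) := by
    have h1 : (1 + δ) ^ p = ∑ m ∈ Finset.range (p + 1), δ ^ m * (p.choose m : L) := by
      rw [add_comm, add_pow]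
      refine Finset.sum_congr rfl fun m _ => ?_
      rw [one_pow, mul_one]
    have hp1 : p = (p - 1) + 1 := (Nat.sub_add_cancel hp.one_le).symm
    rw [h1, Finset.sum_range_succ']
    conv_lhs => rw [hp1, Finset.sum_range_succ']
    simp only [pow_zero, Nat.choose_zero_right, Nat.cast_one, mul_one, zero_add, pow_one,
      Nat.choose_one_right]
    rw [← hp1]
    ring
  have hrest : v (∑ m ∈ Finset.range (p - 1), δ ^ (m + 2) * (p.choose (m + 2) : L)) <
      v (p : L) * v δ := by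
    refine v.map_sum_lt hpos.ne' fun m hm => ?_
    rw [Finset.mem_range] at hm
    rw [v.map_mul, v.map_pow]
    by_cases hmp : m + 2 = p
    · rw [hmp, Nat.choose_self, Nat.cast_one, v.map_one, mul_one]
      have : v δ ^ p = v δ ^ (p - 1) * v δ := by
        rw [← pow_succ, Nat.sub_add_cancel hp.one_le]
      rw [this]
      exact mul_lt_mul_of_pos_right hδp hvδ
    · have hlt : m + 2 < p := by omega
      have hdvd : p ∣ p.choose (m + 2) := hp.dvd_choose_self (by omega) hlt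
      obtain ⟨c, hc⟩ := hdvd
      have h2 : v (p.choose (m + 2) : L) ≤ v (p : L) := by
        rw [hc, Nat.cast_mul, v.map_mul]
        exact mul_le_of_le_one_right zero_le (val_natCast_le_one v c)
      have h3 : v δ ^ (m + 2) < v δ := by
        have : v δ ^ (m + 2) = v δ ^ (m + 1) * v δ := by rw [← pow_succ]
        rw [this]
        have h4 : v δ ^ (m + 1) < 1 := pow_lt_one₀ zero_le hδ1 (by omega)
        calc v δ ^ (m + 1) * v δ < 1 * v δ := mul_lt_mul_of_pos_right h4 hvδ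
          _ = v δ := one_mul _
      calc v δ ^ (m + 2) * v (p.choose (m + 2) : L)
          ≤ v δ ^ (m + 2) * v (p : L) := mul_le_mul_right h2 _
        _ < v δ * v (p : L) := mul_lt_mul_of_pos_right h3 hvp
        _ = v (p : L) * v δ := mul_comm _ _
  rw [hexp, v.map_add_eq_of_lt_left (by rw [v.map_mul]; exact hrest), v.map_mul]

/-! ### V1 -/

/-- **V1.** -/
theorem stmt_V1 : Stmt_V1 := by
  intro L _ _ _ Γ₀ _ v p hp h
  classical
  have : NeZero (p : L) := ⟨by exact_mod_cast hp.ne_zero⟩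
  have : NeZero p := ⟨hp.ne_zero⟩
  obtain ⟨μ, hμ⟩ := HasEnoughRootsOfUnity.exists_primitiveRoot L p
  have hfac : ∀ x : L, x ^ p - 1 = ∏ i ∈ Finset.range p, (x - μ ^ i) := by
    intro x
    have := congrArg (Polynomial.eval x) (X_pow_sub_C_eq_prod hμ hp.pos (one_pow p))
    simpa [Polynomial.eval_prod] using this
  -- the closest root of unity
  obtain ⟨i0, -, hmin⟩ := Finset.exists_min_image (Finset.range p) (fun i => v (h - μ ^ i))
    ⟨0, Finset.mem_range.2 hp.pos⟩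
  set ζ := μ ^ i0 with hζ
  have hζp : ζ ^ p = 1 := by rw [hζ, ← pow_mul, mul_comm, pow_mul, hμ.pow_eq_one, one_pow]
  have hminall : ∀ η : L, η ^ p = 1 → v (h - ζ) ≤ v (h - η) := by
    intro η hη
    obtain ⟨i, hi, rfl⟩ := hμ.eq_pow_of_pow_eq_one hη
    exact hmin i (Finset.mem_range.2 hi)
  refine ⟨ζ, hζp, ?_⟩
  have hζ0 : ζ ≠ 0 := by
    intro h0
    rw [h0, zero_pow hp.ne_zero] at hζp
    exact zero_ne_one hζp
  have hvζ : v ζ = 1 := val_eq_one_of_pow_eq_one v hp.ne_zero hζp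
  -- `h' = h / ζ`
  have hp1 : p = (p - 1) + 1 := (Nat.sub_add_cancel hp.one_le).symm
  have hprim : IsPrimitiveRoot μ ((p - 1) + 1) := by rw [← hp1]; exact hμ
  have hord := hprim.prod_one_sub_pow_eq_order
  have hvp : v (p : L) = ∏ k ∈ Finset.range (p - 1), v (1 - μ ^ (k + 1)) := by
    rw [← map_prod, hord]
    congr 1
    rw [hp1]
    push_cast
    simp
  have hterm : ∀ k ∈ Finset.range (p - 1), v (1 - μ ^ (k + 1)) ≤ v (h * ζ⁻¹ - μ ^ (k + 1)) := by
    intro k _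
    have e1 : h * ζ⁻¹ - μ ^ (k + 1) = ζ⁻¹ * (h - ζ * μ ^ (k + 1)) := by
      field_simp
    have e2 : (1 : L) - μ ^ (k + 1) = ζ⁻¹ * ((h - ζ * μ ^ (k + 1)) - (h - ζ)) := by
      field_simp
      ring
    have hη : (ζ * μ ^ (k + 1)) ^ p = 1 := by
      rw [mul_pow, hζp, one_mul, ← pow_mul, mul_comm, pow_mul, hμ.pow_eq_one, one_pow]
    have hvi : v ζ⁻¹ = 1 := by rw [map_inv₀, hvζ, inv_one]
    rw [e1, e2, v.map_mul, v.map_mul, hvi, one_mul, one_mul]
    exact (v.map_sub _ _).trans (max_le le_rfl (hminall _ hη))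
  have hprod : v ((h * ζ⁻¹) ^ p - 1) =
      v (h * ζ⁻¹ - 1) * ∏ k ∈ Finset.range (p - 1), v (h * ζ⁻¹ - μ ^ (k + 1)) := by
    rw [hfac]
    conv_lhs => rw [hp1, Finset.prod_range_succ']
    rw [pow_zero, v.map_mul, map_prod, mul_comm]
  have hpow : (h * ζ⁻¹) ^ p - 1 = h ^ p - 1 := by
    rw [mul_pow, inv_pow, hζp, inv_one, mul_one]
  have hfirst : v (h * ζ⁻¹ - 1) = v (h - ζ) := by
    have e : h * ζ⁻¹ - 1 = ζ⁻¹ * (h - ζ) := by field_simp
    rw [e, v.map_mul, map_inv₀, hvζ, inv_one, one_mul]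
  rw [← hpow, hprod, hfirst, hvp]
  exact mul_le_mul_right (Finset.prod_le_prod' hterm) _

end Fermat.Agent.S44.C.H01
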