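import Mathlib
import Fermat.Agent.S44.C.Defs
import Fermat.Agent.BAD.H82_Arch

/-!
# S44, package C, leaves F1–F4 (helper19): the `p`-adic closure of `ℚ` in `L`

`L` a field of characteristic `0`, `A` a valuation subring with `|p| < 1`,
`IsRatLim A p z : ∀ k, ∃ r : ℚ, |z - r| ≤ |p| ^ k`.

* `isRatLim_rat`, `isRatLim_add`, `isRatLim_neg`, `isRatLim_sub`, `isRatLim_mul`,
  `isRatLim_inv` (the last one for algebraic `z`);
* `stmt_F1 : Stmt_F1` : the limits of rationals form a subfield (`L` algebraic over `ℚ`);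
* `stmt_F2 : Stmt_F2` : they are fixed by valuation preserving automorphisms;
* `stmt_F3 : Stmt_F3` : square roots `≡ 1` of limits `≡ 1` are limits (`p` odd);
* `stmt_F4 : Stmt_F4` : unit limits are congruent mod `p²` to integers prime to `p`.
-/

set_option autoImplicit false
set_option linter.unusedSectionVars false

namespace Fermat.Agent.S44.C.H19

open Fermat.Agent.BAD.H82

section Basic

variable {L : Type*} [Field L] [Algebra ℚ L] [CharZero L] (A : ValuationSubring L) {p : ℕ}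

theorem algebraMap_rat_eq (r : ℚ) :
    algebraMap ℚ L r = ((r.num : ℤ) : L) / (((r.den : ℕ) : ℤ) : L) := by
  rw [eq_ratCast, Rat.cast_def, Int.cast_natCast]

theorem val_p_ne_zero (hp : p.Prime) : A.valuation (p : L) ≠ 0 :=
  (Valuation.ne_zero_iff _).2 (Nat.cast_ne_zero.2 hp.ne_zero)

theorem val_p_pos (hp : p.Prime) : 0 < A.valuation (p : L) :=
  zero_lt_iff.2 (val_p_ne_zero A hp)

theorem val_p_pow_le_one (hp1 : A.valuation (p : L) < 1) (n : ℕ) :
    A.valuation (p : L) ^ n ≤ 1 :=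
  pow_le_one' hp1.le n

theorem val_p_pow_anti (hp1 : A.valuation (p : L) < 1) {m n : ℕ} (h : m ≤ n) :
    A.valuation (p : L) ^ n ≤ A.valuation (p : L) ^ m :=
  pow_le_pow_right_of_le_one' hp1.le h

theorem val_p_pow_strictAnti (hp : p.Prime) (hp1 : A.valuation (p : L) < 1) {m n : ℕ}
    (h : m < n) : A.valuation (p : L) ^ n < A.valuation (p : L) ^ m :=
  pow_lt_pow_right_of_lt_one₀ (val_p_pos A hp) hp1 h

theorem isRatLim_rat (r : ℚ) : IsRatLim A p (algebraMap ℚ L r) := fun k =>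
  ⟨r, by rw [sub_self, map_zero]; exact zero_le⟩

theorem isRatLim_add {z w : L} (hz : IsRatLim A p z) (hw : IsRatLim A p w) :
    IsRatLim A p (z + w) := by
  intro k
  obtain ⟨r, hr⟩ := hz k
  obtain ⟨s, hs⟩ := hw k
  refine ⟨r + s, ?_⟩
  have h : z + w - algebraMap ℚ L (r + s) =
      (z - algebraMap ℚ L r) + (w - algebraMap ℚ L s) := by
    rw [map_add]; ring
  rw [h]
  exact (Valuation.map_add _ _ _).trans (max_le hr hs)

theorem isRatLim_neg {z : L} (hz : IsRatLim A p z) : IsRatLim A p (-z) := by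
  intro k
  obtain ⟨r, hr⟩ := hz k
  refine ⟨-r, ?_⟩
  have h : -z - algebraMap ℚ L (-r) = -(z - algebraMap ℚ L r) := by
    rw [map_neg]; ring
  rw [h, Valuation.map_neg]
  exact hr

theorem isRatLim_sub {z w : L} (hz : IsRatLim A p z) (hw : IsRatLim A p w) :
    IsRatLim A p (z - w) := by
  rw [sub_eq_add_neg]
  exact isRatLim_add A hz (isRatLim_neg A hw)

/-- A rational number has valuation at most `|p| ^ (-m)` for some `m`. -/
theorem exists_rat_bound (hp : p.Prime) (hp1 : A.valuation (p : L) < 1) (r : ℚ) :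
    ∃ m : ℕ, A.valuation (algebraMap ℚ L r) * A.valuation (p : L) ^ m ≤ 1 := by
  obtain ⟨m, hm⟩ := exists_valuation_int_eq A hp ((A.mem_nonunits_iff).2 hp1) ((r.den : ℕ) : ℤ)
    (by exact_mod_cast r.den_nz)
  refine ⟨m, ?_⟩
  have hden : A.valuation (((r.den : ℕ) : ℤ) : L) ≠ 0 := by
    rw [hm]
    exact pow_ne_zero _ (val_p_ne_zero A hp)
  rw [algebraMap_rat_eq, map_div₀, ← hm, div_mul_cancel₀ _ hden]
  exact valuation_int_le_one A r.num

/-- A limit of rationals has valuation at most `|p| ^ (-m)` for some `m`. -/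
theorem exists_bound (hp : p.Prime) (hp1 : A.valuation (p : L) < 1) {z : L}
    (hz : IsRatLim A p z) :
    ∃ m : ℕ, A.valuation z * A.valuation (p : L) ^ m ≤ 1 := by
  obtain ⟨r, hr⟩ := hz 0
  rw [pow_zero] at hr
  obtain ⟨m, hm⟩ := exists_rat_bound A hp hp1 r
  refine ⟨m, ?_⟩
  have h : z = (z - algebraMap ℚ L r) + algebraMap ℚ L r := by ring
  calc A.valuation z * A.valuation (p : L) ^ m
      = A.valuation ((z - algebraMap ℚ L r) + algebraMap ℚ L r) * A.valuation (p : L) ^ m := by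
        rw [← h]
    _ ≤ max (A.valuation (z - algebraMap ℚ L r)) (A.valuation (algebraMap ℚ L r)) *
          A.valuation (p : L) ^ m := mul_le_mul_left (Valuation.map_add _ _ _) _
    _ ≤ 1 := by
        rcases le_total (A.valuation (z - algebraMap ℚ L r)) (A.valuation (algebraMap ℚ L r))
          with h1 | h1
        · rw [max_eq_right h1]; exact hm
        · rw [max_eq_left h1]
          calc A.valuation (z - algebraMap ℚ L r) * A.valuation (p : L) ^ m
              ≤ 1 * 1 := mul_le_mul' hr (val_p_pow_le_one A hp1 m)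
            _ = 1 := one_mul 1

theorem isRatLim_mul (hp : p.Prime) (hp1 : A.valuation (p : L) < 1) {z w : L}
    (hz : IsRatLim A p z) (hw : IsRatLim A p w) : IsRatLim A p (z * w) := by
  intro k
  obtain ⟨mz, hmz⟩ := exists_bound A hp hp1 hz
  obtain ⟨s, hs⟩ := hw (k + mz)
  obtain ⟨ms, hms⟩ := exists_rat_bound A hp hp1 s
  obtain ⟨r, hr⟩ := hz (k + ms)
  refine ⟨r * s, ?_⟩
  have h : z * w - algebraMap ℚ L (r * s) =
      z * (w - algebraMap ℚ L s) + algebraMap ℚ L s * (z - algebraMap ℚ L r) := by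
    rw [map_mul]; ring
  rw [h]
  refine (Valuation.map_add _ _ _).trans (max_le ?_ ?_)
  · rw [map_mul]
    calc A.valuation z * A.valuation (w - algebraMap ℚ L s)
        ≤ A.valuation z * A.valuation (p : L) ^ (k + mz) := mul_le_mul_right hs _
      _ = (A.valuation z * A.valuation (p : L) ^ mz) * A.valuation (p : L) ^ k := by
          rw [pow_add, mul_comm (A.valuation (p : L) ^ k), mul_assoc]
      _ ≤ 1 * A.valuation (p : L) ^ k := mul_le_mul_left hmz _
      _ = A.valuation (p : L) ^ k := one_mul _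
  · rw [map_mul]
    calc A.valuation (algebraMap ℚ L s) * A.valuation (z - algebraMap ℚ L r)
        ≤ A.valuation (algebraMap ℚ L s) * A.valuation (p : L) ^ (k + ms) :=
          mul_le_mul_right hr _
      _ = (A.valuation (algebraMap ℚ L s) * A.valuation (p : L) ^ ms) *
            A.valuation (p : L) ^ k := by
          rw [pow_add, mul_comm (A.valuation (p : L) ^ k), mul_assoc]
      _ ≤ 1 * A.valuation (p : L) ^ k := mul_le_mul_left hms _
      _ = A.valuation (p : L) ^ k := one_mul _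

theorem isAlgebraic_int_of_rat (halg : Algebra.IsAlgebraic ℚ L) (x : L) : IsAlgebraic ℤ x :=
  (IsFractionRing.isAlgebraic_iff ℤ ℚ L).2 (halg.isAlgebraic x)

theorem isRatLim_inv (hp : p.Prime) (hp1 : A.valuation (p : L) < 1) {z : L}
    (hz : IsRatLim A p z) (hz0 : z ≠ 0) (halg : IsAlgebraic ℤ z) : IsRatLim A p z⁻¹ := by
  intro k
  obtain ⟨n, hn⟩ := exists_q_pow_le A hp ((A.mem_nonunits_iff).2 hp1) hz0 halg
  obtain ⟨r, hr⟩ := hz (k + 2 * n + 1)
  have hlt : A.valuation (z - algebraMap ℚ L r) < A.valuation z :=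
    lt_of_le_of_lt hr (lt_of_lt_of_le (val_p_pow_strictAnti A hp hp1 (by omega)) hn)
  have hvr : A.valuation (algebraMap ℚ L r) = A.valuation z := by
    have h : algebraMap ℚ L r = z - (z - algebraMap ℚ L r) := by ring
    rw [h]
    exact Valuation.map_sub_eq_of_lt_left _ hlt
  have hvz : A.valuation z ≠ 0 := (Valuation.ne_zero_iff _).2 hz0
  have hr0 : algebraMap ℚ L r ≠ 0 := by
    intro h0
    rw [h0, map_zero] at hvr
    exact hvz hvr.symm
  refine ⟨r⁻¹, ?_⟩
  have h : z⁻¹ - algebraMap ℚ L r⁻¹ =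
      -(z - algebraMap ℚ L r) * (z * algebraMap ℚ L r)⁻¹ := by
    rw [map_inv₀]
    field_simp
    ring
  rw [h, map_mul, Valuation.map_neg, map_inv₀, map_mul, hvr]
  have hpos : 0 < A.valuation z * A.valuation z := zero_lt_iff.2 (mul_ne_zero hvz hvz)
  rw [mul_inv_le_iff₀ hpos]
  calc A.valuation (z - algebraMap ℚ L r)
      ≤ A.valuation (p : L) ^ (k + 2 * n + 1) := hr
    _ ≤ A.valuation (p : L) ^ (k + (n + n)) := val_p_pow_anti A hp1 (by omega)
    _ = A.valuation (p : L) ^ k * (A.valuation (p : L) ^ n * A.valuation (p : L) ^ n) := by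
        rw [pow_add, pow_add]
    _ ≤ A.valuation (p : L) ^ k * (A.valuation z * A.valuation z) :=
        mul_le_mul_right (mul_le_mul' hn hn) _

/-- The subfield of limits of rationals. -/
def ratLimSubfield (hp : p.Prime) (hp1 : A.valuation (p : L) < 1)
    (halg : Algebra.IsAlgebraic ℚ L) : Subfield L where
  carrier := {z | IsRatLim A p z}
  mul_mem' := fun hz hw => isRatLim_mul A hp hp1 hz hw
  one_mem' := by
    have := isRatLim_rat (L := L) A (p := p) 1
    rwa [map_one] at this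
  add_mem' := fun hz hw => isRatLim_add A hz hw
  zero_mem' := by
    have := isRatLim_rat (L := L) A (p := p) 0
    rwa [map_zero] at this
  neg_mem' := fun hz => isRatLim_neg A hz
  inv_mem' := fun z hz => by
    by_cases hz0 : z = 0
    · rw [hz0, inv_zero]
      have := isRatLim_rat (L := L) A (p := p) 0
      rwa [map_zero] at this
    · exact isRatLim_inv A hp hp1 hz hz0 (isAlgebraic_int_of_rat halg z)

theorem mem_ratLimSubfield (hp : p.Prime) (hp1 : A.valuation (p : L) < 1)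
    (halg : Algebra.IsAlgebraic ℚ L) (z : L) :
    z ∈ ratLimSubfield A hp hp1 halg ↔ IsRatLim A p z := Iff.rfl

/-- An element of valuation `≤ |p| ^ k` for all `k` is zero (`L` algebraic: rank one). -/
theorem eq_zero_of_forall_le (hp : p.Prime) (hp1 : A.valuation (p : L) < 1) {x : L}
    (halg : IsAlgebraic ℤ x) (h : ∀ k : ℕ, A.valuation x ≤ A.valuation (p : L) ^ k) : x = 0 := by
  by_contra hx
  obtain ⟨n, hn⟩ := exists_q_pow_le A hp ((A.mem_nonunits_iff).2 hp1) hx halg
  exact absurd ((h (n + 1)).trans_lt (val_p_pow_strictAnti A hp hp1 (Nat.lt_succ_self n)))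
    (not_lt.2 hn)

end Basic

section Arith

/-- Integer Hensel for square roots: `c ≡ 1 mod p`, `p` odd `⇒` `c` is a square mod `p ^ n` of
some `s ≡ 1 mod p`. -/
theorem exists_sqrt_mod_pow {p : ℕ} (hp : p.Prime) (hp2 : p ≠ 2) (c : ℤ)
    (hc : (p : ℤ) ∣ c - 1) (n : ℕ) :
    ∃ s : ℤ, (p : ℤ) ∣ s - 1 ∧ (p : ℤ) ^ (n + 1) ∣ s ^ 2 - c := by
  induction n with
  | zero =>
    refine ⟨1, by simp, ?_⟩
    rw [zero_add, pow_one]
    have h : (1 : ℤ) ^ 2 - c = -(c - 1) := by ring
    rw [h]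
    exact (dvd_neg).2 hc
  | succ n ih =>
    obtain ⟨s, hs1, m, hm⟩ := ih
    have hps : ¬ (p : ℤ) ∣ 2 * s := by
      intro h
      have hpZ : Prime (p : ℤ) := Nat.prime_iff_prime_int.mp hp
      rcases hpZ.dvd_or_dvd h with h2 | h2
      · have h3 : p ∣ 2 := by exact_mod_cast h2
        exact hp2 ((Nat.prime_dvd_prime_iff_eq hp Nat.prime_two).1 h3)
      · have h3 : (p : ℤ) ∣ 1 := by
          have := dvd_sub h2 hs1
          simpa using this
        exact hpZ.not_dvd_one h3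
    have hcop : IsCoprime (2 * s) (p : ℤ) := by
      have hpZ : Prime (p : ℤ) := Nat.prime_iff_prime_int.mp hp
      exact ((hpZ.coprime_iff_not_dvd).2 hps).symm
    obtain ⟨x, y, hxy⟩ := hcop
    refine ⟨s + (p : ℤ) ^ (n + 1) * (-m * x), ?_, ?_⟩
    · have h : s + (p : ℤ) ^ (n + 1) * (-m * x) - 1 = (s - 1) + (p : ℤ) * ((p : ℤ) ^ n * (-m * x)) := by
        ring
      rw [h]
      exact dvd_add hs1 (dvd_mul_right _ _)
    · refine ⟨m * y + (p : ℤ) ^ n * (-m * x) ^ 2, ?_⟩
      have e1 : (s + (p : ℤ) ^ (n + 1) * (-m * x)) ^ 2 - c =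
          (s ^ 2 - c) + (p : ℤ) ^ (n + 1) * (2 * s * (-m * x)) +
            (p : ℤ) ^ (n + 1) * ((p : ℤ) ^ (n + 1) * (-m * x) ^ 2) := by ring
      rw [e1, hm]
      have e2 : (p : ℤ) ^ (n + 1 + 1) = (p : ℤ) ^ (n + 1) * p := pow_succ _ _
      have e3 : (p : ℤ) ^ (n + 1) = (p : ℤ) * (p : ℤ) ^ n := pow_succ' _ _
      rw [e2]
      have e5 : (p : ℤ) ^ (n + 1) * m + (p : ℤ) ^ (n + 1) * (2 * s * (-m * x)) =
          (p : ℤ) ^ (n + 1) * (p * (m * y)) := by
        linear_combination (-((p : ℤ) ^ (n + 1)) * m) * hxy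
      rw [e5]
      conv_lhs => rw [show (p : ℤ) ^ (n + 1) * ((p : ℤ) ^ (n + 1) * (-m * x) ^ 2) =
        (p : ℤ) ^ (n + 1) * ((p : ℤ) * ((p : ℤ) ^ n * (-m * x) ^ 2)) by rw [e3]; ring]
      ring

/-- Division mod `p ^ k`: for `b` prime to `p` there is `t` with `p ^ k ∣ t b - a`. -/
theorem exists_div_mod_pow {p : ℕ} (hp : p.Prime) (a b : ℤ) (hb : ¬ (p : ℤ) ∣ b) (k : ℕ) :
    ∃ t : ℤ, (p : ℤ) ^ k ∣ t * b - a := by
  have hpZ : Prime (p : ℤ) := Nat.prime_iff_prime_int.mp hp
  have hcop : IsCoprime b ((p : ℤ) ^ k) :=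
    (((hpZ.coprime_iff_not_dvd).2 hb).symm).pow_right
  obtain ⟨x, y, hxy⟩ := hcop
  refine ⟨a * x, -(a * y), ?_⟩
  linear_combination a * hxy

end Arith

section Units

variable {L : Type*} [Field L] [Algebra ℚ L] [CharZero L] (A : ValuationSubring L) {p : ℕ}

theorem val_int_le_pow_of_dvd {a : ℤ} {k : ℕ}
    (h : (p : ℤ) ^ k ∣ a) : A.valuation (a : L) ≤ A.valuation (p : L) ^ k := by
  obtain ⟨c, rfl⟩ := h
  push_cast
  rw [map_mul, map_pow]
  calc A.valuation (p : L) ^ k * A.valuation (c : L)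
      ≤ A.valuation (p : L) ^ k * 1 := mul_le_mul_right (valuation_int_le_one A c) _
    _ = A.valuation (p : L) ^ k := mul_one _

theorem val_int_lt_one_of_dvd (hp1 : A.valuation (p : L) < 1) {a : ℤ}
    (h : (p : ℤ) ∣ a) : A.valuation (a : L) < 1 := by
  have h' : (p : ℤ) ^ 1 ∣ a := by rwa [pow_one]
  have h1 := val_int_le_pow_of_dvd (L := L) A h'
  rw [pow_one] at h1
  exact lt_of_le_of_lt h1 hp1

theorem dvd_of_val_int_lt_one (hp : p.Prime) (hp1 : A.valuation (p : L) < 1) {a : ℤ}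
    (h : A.valuation (a : L) < 1) : (p : ℤ) ∣ a := by
  by_contra hna
  exact absurd (valuation_int_eq_one A hp ((A.mem_nonunits_iff).2 hp1) a hna) h.ne

theorem rat_unit (hp : p.Prime) (hp1 : A.valuation (p : L) < 1) {r : ℚ}
    (hr : A.valuation (algebraMap ℚ L r) = 1) :
    ¬ (p : ℤ) ∣ r.num ∧ ¬ (p : ℤ) ∣ ((r.den : ℕ) : ℤ) := by
  have hden0 : (((r.den : ℕ) : ℤ) : L) ≠ 0 := by
    exact_mod_cast r.den_nz
  have hmul : algebraMap ℚ L r * (((r.den : ℕ) : ℤ) : L) = ((r.num : ℤ) : L) := by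
    rw [algebraMap_rat_eq, div_mul_cancel₀ _ hden0]
  have hv : A.valuation (((r.den : ℕ) : ℤ) : L) = A.valuation ((r.num : ℤ) : L) := by
    rw [← hmul, map_mul, hr, one_mul]
  have hden : ¬ (p : ℤ) ∣ ((r.den : ℕ) : ℤ) := by
    intro hd
    have h1 : A.valuation (((r.den : ℕ) : ℤ) : L) < 1 := val_int_lt_one_of_dvd A hp1 hd
    rw [hv] at h1
    have h2 : (p : ℤ) ∣ r.num := dvd_of_val_int_lt_one A hp hp1 h1
    have h3 : p ∣ r.num.natAbs := Int.natCast_dvd.1 h2
    have h4 : p ∣ r.den := by exact_mod_cast hd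
    have h5 := Nat.dvd_gcd h3 h4
    rw [Nat.Coprime.gcd_eq_one r.reduced] at h5
    exact hp.one_lt.ne' (Nat.dvd_one.1 h5)
  refine ⟨fun hn => ?_, hden⟩
  have h1 : A.valuation ((r.num : ℤ) : L) < 1 := val_int_lt_one_of_dvd A hp1 hn
  rw [← hv] at h1
  exact absurd (valuation_int_eq_one A hp ((A.mem_nonunits_iff).2 hp1) _ hden) h1.ne

/-- A rational unit is congruent mod `p ^ (k + 1)` to an integer prime to `p`. -/
theorem exists_int_approx (hp : p.Prime) (hp1 : A.valuation (p : L) < 1) {r : ℚ}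
    (hr : A.valuation (algebraMap ℚ L r) = 1) (k : ℕ) :
    ∃ t : ℤ, ¬ (p : ℤ) ∣ t ∧
      A.valuation (algebraMap ℚ L r - (t : L)) ≤ A.valuation (p : L) ^ (k + 1) := by
  obtain ⟨hnum, hden⟩ := rat_unit A hp hp1 hr
  obtain ⟨t, ht⟩ := exists_div_mod_pow hp r.num ((r.den : ℕ) : ℤ) hden (k + 1)
  have hden0 : (((r.den : ℕ) : ℤ) : L) ≠ 0 := by
    exact_mod_cast r.den_nz
  refine ⟨t, fun hpt => hnum ?_, ?_⟩
  · have h1 : (p : ℤ) ∣ t * ((r.den : ℕ) : ℤ) - r.num :=
      dvd_trans (dvd_pow_self _ (Nat.succ_ne_zero k)) ht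
    have h2 : (p : ℤ) ∣ t * ((r.den : ℕ) : ℤ) := dvd_mul_of_dvd_left hpt _
    have h3 := dvd_sub h2 h1
    simpa using h3
  · have h : algebraMap ℚ L r - (t : L) =
        -(((t * ((r.den : ℕ) : ℤ) - r.num : ℤ)) : L) / (((r.den : ℕ) : ℤ) : L) := by
      rw [algebraMap_rat_eq]
      push_cast
      field_simp
      ring
    rw [h, map_div₀, Valuation.map_neg,
      valuation_int_eq_one A hp ((A.mem_nonunits_iff).2 hp1) _ hden, div_one]
    exact val_int_le_pow_of_dvd A ht

end Units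

section Statements

theorem stmt_F1 : Stmt_F1 := by
  intro L _ _ _ halg A p hp hp1
  exact ⟨ratLimSubfield A hp hp1 halg, fun z => mem_ratLimSubfield A hp hp1 halg z⟩

theorem stmt_F2 : Stmt_F2 := by
  intro L _ _ _ halg A p hp hp1 σ hσ z hz
  have h0 : σ z - z = 0 := by
    refine eq_zero_of_forall_le A hp hp1 (isAlgebraic_int_of_rat halg _) (fun k => ?_)
    obtain ⟨r, hr⟩ := hz k
    have h : σ z - z = σ (z - algebraMap ℚ L r) - (z - algebraMap ℚ L r) := by
      rw [map_sub, σ.commutes]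
      ring
    rw [h]
    exact A.valuation.map_sub_le ((hσ _).le.trans hr) hr
  exact sub_eq_zero.1 h0

theorem stmt_F4 : Stmt_F4 := by
  intro L _ _ _ A p hp hp1 w hw hw1
  obtain ⟨r, hr⟩ := hw 2
  have hlt : A.valuation (w - algebraMap ℚ L r) < A.valuation w := by
    rw [hw1]
    exact lt_of_le_of_lt hr (lt_of_le_of_lt (val_p_pow_anti A hp1 (by omega : 1 ≤ 2))
      (by rw [pow_one]; exact hp1))
  have hvr : A.valuation (algebraMap ℚ L r) = 1 := by
    have h : algebraMap ℚ L r = w - (w - algebraMap ℚ L r) := by ring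
    rw [h, Valuation.map_sub_eq_of_lt_left _ hlt, hw1]
  obtain ⟨t, ht, hrt⟩ := exists_int_approx A hp hp1 hvr 1
  refine ⟨t, ht, ?_⟩
  have h : w - (t : L) = (w - algebraMap ℚ L r) + (algebraMap ℚ L r - (t : L)) := by ring
  rw [h]
  exact (Valuation.map_add _ _ _).trans (max_le hr hrt)

theorem stmt_F3 : Stmt_F3 := by
  intro L _ _ _ A p hp hp2 hp1 d η hd hd1 hη hη1 k
  -- a rational approximation of `d`
  obtain ⟨r, hr⟩ := hd (k + 1)
  have hpk1 : A.valuation (p : L) ^ (k + 1) < 1 :=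
    lt_of_le_of_lt (val_p_pow_anti A hp1 (by omega : 1 ≤ k + 1)) (by rw [pow_one]; exact hp1)
  have hr1 : A.valuation (algebraMap ℚ L r - 1) < 1 := by
    have h : algebraMap ℚ L r - 1 = -(d - algebraMap ℚ L r) + (d - 1) := by ring
    rw [h]
    refine lt_of_le_of_lt (Valuation.map_add _ _ _) (max_lt ?_ hd1)
    rw [Valuation.map_neg]
    exact lt_of_le_of_lt hr hpk1
  have hvr : A.valuation (algebraMap ℚ L r) = 1 := by
    have h : algebraMap ℚ L r = 1 + (algebraMap ℚ L r - 1) := by ring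
    rw [h]
    exact A.valuation.map_one_add_of_lt hr1
  -- an integer approximation `c ≡ 1 mod p`
  obtain ⟨c, -, hrc⟩ := exists_int_approx A hp hp1 hvr k
  have hc1 : (p : ℤ) ∣ c - 1 := by
    refine dvd_of_val_int_lt_one A hp hp1 ?_
    have h : (((c - 1 : ℤ)) : L) = -(algebraMap ℚ L r - (c : L)) + (algebraMap ℚ L r - 1) := by
      push_cast; ring
    rw [h]
    refine lt_of_le_of_lt (Valuation.map_add _ _ _) (max_lt ?_ hr1)
    rw [Valuation.map_neg]
    exact lt_of_le_of_lt hrc hpk1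
  -- a square root of `c` mod `p ^ (k + 1)`
  obtain ⟨s, hs1, hsc⟩ := exists_sqrt_mod_pow hp hp2 c hc1 k
  refine ⟨(s : ℚ), ?_⟩
  have hcast : algebraMap ℚ L (s : ℚ) = (s : L) := map_intCast _ s
  rw [hcast]
  have hs1v : A.valuation ((s : L) - 1) < 1 := by
    have := val_int_lt_one_of_dvd (L := L) A hp1 hs1
    simpa using this
  have h2 : A.valuation (2 : L) = 1 := by
    have h2' : ¬ (p : ℤ) ∣ 2 := by
      intro h
      have h3 : p ∣ 2 := by exact_mod_cast h
      exact hp2 ((Nat.prime_dvd_prime_iff_eq hp Nat.prime_two).1 h3)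
    have := valuation_int_eq_one A hp ((A.mem_nonunits_iff).2 hp1) 2 h2'
    simpa using this
  have hsum : A.valuation ((s : L) + η) = 1 := by
    have h : (s : L) + η = 2 + (((s : L) - 1) + (η - 1)) := by ring
    have hlt : A.valuation (((s : L) - 1) + (η - 1)) < A.valuation (2 : L) := by
      rw [h2]
      exact lt_of_le_of_lt (Valuation.map_add _ _ _) (max_lt hs1v hη1)
    rw [h, A.valuation.map_add_eq_of_lt_left hlt, h2]
  have hsq : A.valuation ((s : L) ^ 2 - d) ≤ A.valuation (p : L) ^ (k + 1) := by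
    have h : (s : L) ^ 2 - d = (((s ^ 2 - c : ℤ)) : L) + (-(algebraMap ℚ L r - (c : L)) +
        -(d - algebraMap ℚ L r)) := by
      push_cast; ring
    rw [h]
    refine (Valuation.map_add _ _ _).trans (max_le (val_int_le_pow_of_dvd A hsc) ?_)
    refine (Valuation.map_add _ _ _).trans (max_le ?_ ?_)
    · rw [Valuation.map_neg]; exact hrc
    · rw [Valuation.map_neg]; exact hr
  have hfac : (s : L) ^ 2 - d = -((η - (s : L)) * ((s : L) + η)) := by
    rw [← hη]; ring
  rw [hfac, Valuation.map_neg, map_mul, hsum, mul_one] at hsq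
  exact hsq.trans (val_p_pow_anti A hp1 (Nat.le_succ k))

end Statements

end Fermat.Agent.S44.C.H19
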