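/-
Row 38 (S44), package C (helper33): the approximate character `lam = (y - β x)/(y + β x)` on the
S05 model `y² = x³ + a x² + b x`, `β² = a`, and the exact statements of the leaves M and L4.
Plan: NOTES/plan/L_S44_C.md.
-/
import Fermat.Agent.S05.Defs
import Fermat.Agent.S44.C.Defs

set_option autoImplicit false

namespace Fermat.Agent.S44.C

open WeierstrassCurve WeierstrassCurve.Affine
open Fermat.Agent.S05 (ModelHyp InE0 InE1)

/-- The approximate character `lam(P) = (y - β x) / (y + β x)`, `lam(O) = 1`. -/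
noncomputable def lam {L : Type*} [Field L] (β : L) {W : Affine L} : W.Point → L
  | .zero => 1
  | .some x y _ => (y - β * x) / (y + β * x)

@[simp] lemma lam_zero {L : Type*} [Field L] (β : L) {W : Affine L} :
    lam β (0 : W.Point) = 1 := rfl

@[simp] lemma lam_some {L : Type*} [Field L] (β : L) {W : Affine L} {x y : L}
    (h : W.Nonsingular x y) : lam β (Point.some x y h) = (y - β * x) / (y + β * x) := rfl

/-- **M** (multiplicativity of `lam` on `E₀`, multiplicative reduction `|b| < 1`):
`lam` is a unit on `E₀`, `lam (-P) = (lam P)⁻¹`, `|lam - 1| < 1` on `E₁`, and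
`|lam (P + Q) - lam P · lam Q| ≤ |b| · |lam Q - 1|` for `P, Q ∈ E₀`. -/
def Stmt_M : Prop :=
  ∀ (L : Type) [Field L] [DecidableEq L] (A : ValuationSubring L) (W : Affine L),
    ModelHyp A W → A.valuation W.a₄ < 1 → ∀ β : L, β ^ 2 = W.a₂ →
    (∀ P : W.Point, InE0 A P → A.valuation (lam β P) = 1) ∧
    (∀ P : W.Point, lam β (-P) = (lam β P)⁻¹) ∧
    (∀ P : W.Point, InE1 A P → A.valuation (lam β P - 1) < 1) ∧
    (∀ P Q : W.Point, InE0 A P → InE0 A Q →
      A.valuation (lam β (P + Q) - lam β P * lam β Q) ≤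
        A.valuation W.a₄ * A.valuation (lam β Q - 1))

/-- **L4** (no small `p`-torsion in `E₁`): if `|b| < |p| < 1`, `S ∈ E₁`, `p S = O` and
`|lam S - 1| ^ (p - 1) < |p|` then `S = O`. -/
def Stmt_L4 : Prop :=
  ∀ (L : Type) [Field L] [DecidableEq L] (A : ValuationSubring L) (W : Affine L),
    ModelHyp A W → ∀ β : L, β ^ 2 = W.a₂ →
    ∀ p : ℕ, p.Prime → A.valuation (p : L) < 1 → A.valuation W.a₄ < A.valuation (p : L) →
    ∀ S : W.Point, InE1 A S → p • S = 0 →
      A.valuation (lam β S - 1) ^ (p - 1) < A.valuation (p : L) → S = 0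

end Fermat.Agent.S44.C
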