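/-
Row 38 (S44), package C (helper33): the twist subgroup
`T = {O} ∪ {(x, β y') : x, y' ∈ F}` of the S05 model `y² = x³ + a x² + b x` (`β² = a`),
for a subfield `F` containing `a`, `b`.  Plan: NOTES/plan/L_S44_C.md.

* `InT_add`, `InT_neg`, `InT_nsmul` : `T` is a subgroup;
* `lam_mem_of_InT` : `lam` takes values in `F` on `T`;
* `smul_eq_of_InT` : an automorphism fixing `F` and `β` fixes `T` pointwise;
* `exists_branch_point_InT` : points of `T` on the `+`-branch above `x₀ ∈ F`, `|b| < |x₀| < 1`.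
-/
import Fermat.Agent.S05.Core
import Fermat.Agent.S44.C.Defs2
import Fermat.Prelude.Def_FLTPrelim_GaloisRep

set_option autoImplicit false

namespace Fermat.Agent.S44.C.H33

open WeierstrassCurve WeierstrassCurve.Affine
open Fermat.Agent.S05 (ModelHyp InE0 InE1)

section twist

variable {L : Type*} [Field L]

/-- The twist subgroup `T = {O} ∪ {(x, β y') : x, y' ∈ F}`. -/
def InT (F : Subfield L) (β : L) {W : Affine L} : W.Point → Prop
  | .zero => True
  | .some x y _ => x ∈ F ∧ ∃ y' ∈ F, y = β * y'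

lemma InT_zero (F : Subfield L) (β : L) {W : Affine L} : InT F β (0 : W.Point) := trivial

lemma InT_some_iff (F : Subfield L) (β : L) {W : Affine L} {x y : L} (h : W.Nonsingular x y) :
    InT F β (Point.some x y h) ↔ x ∈ F ∧ ∃ y' ∈ F, y = β * y' := Iff.rfl

lemma InT_neg {F : Subfield L} {β : L} {W : Affine L} (h₁ : W.a₁ = 0) (h₃ : W.a₃ = 0)
    {P : W.Point} (hP : InT F β P) : InT F β (-P) := by
  rcases P with _ | ⟨x, y, h⟩
  · exact hP
  · obtain ⟨hx, y', hy', rfl⟩ := hP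
    rw [Point.neg_some]
    refine ⟨hx, -y', F.neg_mem hy', ?_⟩
    simp only [Affine.negY, h₁, h₃]
    ring

lemma InT_add [DecidableEq L] {F : Subfield L} {β : L} {W : Affine L} (h₁ : W.a₁ = 0)
    (h₃ : W.a₃ = 0) (hβ : β ^ 2 = W.a₂) (hβ0 : β ≠ 0) (ha : W.a₂ ∈ F) (hb : W.a₄ ∈ F)
    {P Q : W.Point} (hP : InT F β P) (hQ : InT F β Q) : InT F β (P + Q) := by
  rcases P with _ | ⟨x₁, y₁, hn₁⟩
  · have : (Point.zero : W.Point) + Q = Q := zero_add Q
    rw [this]; exact hQ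
  rcases Q with _ | ⟨x₂, y₂, hn₂⟩
  · have : Point.some x₁ y₁ hn₁ + (Point.zero : W.Point) = Point.some x₁ y₁ hn₁ := add_zero _
    rw [this]; exact hP
  obtain ⟨hx₁, y₁', hy₁', rfl⟩ := hP
  obtain ⟨hx₂, y₂', hy₂', rfl⟩ := hQ
  by_cases hxy : x₁ = x₂ ∧ β * y₁' = W.negY x₂ (β * y₂')
  · rw [Point.add_of_Y_eq hxy.1 hxy.2]
    trivial
  rw [Point.add_some hxy]
  -- the slope is `β ℓ'` with `ℓ' ∈ F`
  obtain ⟨ℓ', hℓ', hℓ⟩ : ∃ ℓ' ∈ F, W.slope x₁ x₂ (β * y₁') (β * y₂') = β * ℓ' := by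
    by_cases hx : x₁ = x₂
    · have hy : β * y₁' ≠ W.negY x₂ (β * y₂') := fun h => hxy ⟨hx, h⟩
      refine ⟨(3 * x₁ ^ 2 + 2 * W.a₂ * x₁ + W.a₄) / (2 * W.a₂ * y₁'), ?_, ?_⟩
      · refine F.div_mem (F.add_mem (F.add_mem (F.mul_mem ?_ (F.pow_mem hx₁ 2))
          (F.mul_mem (F.mul_mem ?_ ha) hx₁)) hb) (F.mul_mem (F.mul_mem ?_ ha) hy₁')
        · exact_mod_cast natCast_mem F 3
        · exact_mod_cast natCast_mem F 2
        · exact_mod_cast natCast_mem F 2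
      · rw [slope_of_Y_ne hx hy]
        simp only [Affine.negY, h₁, h₃, zero_mul, sub_zero]
        rw [← hβ]
        have e1 : β * y₁' - -(β * y₁') = 2 * β * y₁' := by ring
        have e2 : (2 : L) * β ^ 2 * y₁' = β * (2 * β * y₁') := by ring
        rw [e1, e2, ← mul_div_assoc, mul_div_mul_left _ _ hβ0]
    · refine ⟨(y₁' - y₂') / (x₁ - x₂), F.div_mem (F.sub_mem hy₁' hy₂') (F.sub_mem hx₁ hx₂), ?_⟩
      rw [slope_of_X_ne hx]
      ring
  show W.addX x₁ x₂ (W.slope x₁ x₂ (β * y₁') (β * y₂')) ∈ F ∧ ∃ y' ∈ F,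
    W.addY x₁ x₂ (β * y₁') (W.slope x₁ x₂ (β * y₁') (β * y₂')) = β * y'
  rw [hℓ]
  have hX : W.addX x₁ x₂ (β * ℓ') = W.a₂ * ℓ' ^ 2 - W.a₂ - x₁ - x₂ := by
    simp only [Affine.addX, h₁]
    rw [← hβ]; ring
  have hXF : W.addX x₁ x₂ (β * ℓ') ∈ F := by
    rw [hX]
    exact F.sub_mem (F.sub_mem (F.sub_mem (F.mul_mem ha (F.pow_mem hℓ' 2)) ha) hx₁) hx₂
  refine ⟨hXF, -(ℓ' * (W.addX x₁ x₂ (β * ℓ') - x₁) + y₁'), ?_, ?_⟩
  · exact F.neg_mem (F.add_mem (F.mul_mem hℓ' (F.sub_mem hXF hx₁)) hy₁')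
  · simp only [Affine.addY, Affine.negAddY, Affine.negY, h₁, h₃]
    ring

lemma InT_nsmul [DecidableEq L] {F : Subfield L} {β : L} {W : Affine L} (h₁ : W.a₁ = 0)
    (h₃ : W.a₃ = 0) (hβ : β ^ 2 = W.a₂) (hβ0 : β ≠ 0) (ha : W.a₂ ∈ F) (hb : W.a₄ ∈ F)
    {P : W.Point} (hP : InT F β P) (n : ℕ) : InT F β (n • P) := by
  induction n with
  | zero => rw [zero_smul]; exact InT_zero F β
  | succ k ih => rw [succ_nsmul]; exact InT_add h₁ h₃ hβ hβ0 ha hb ih hP

/-- `lam` takes values in `F` on `T`. -/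
lemma lam_mem_of_InT {F : Subfield L} {β : L} (hβ0 : β ≠ 0) {W : Affine L} {P : W.Point}
    (hP : InT F β P) : lam β P ∈ F := by
  rcases P with _ | ⟨x, y, h⟩
  · exact F.one_mem
  · obtain ⟨hx, y', hy', rfl⟩ := hP
    rw [lam_some]
    have e1 : β * y' - β * x = β * (y' - x) := by ring
    have e2 : β * y' + β * x = β * (y' + x) := by ring
    rw [e1, e2, mul_div_mul_left _ _ hβ0]
    exact F.div_mem (F.sub_mem hy' hx) (F.add_mem hy' hx)

end twist

section equivariance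

variable {K₀ L : Type*} [Field K₀] [Field L] [DecidableEq L] [Algebra K₀ L]

/-- An automorphism fixing `F` and `β` fixes `T` pointwise. -/
lemma smul_eq_of_InT {F : Subfield L} {β : L} (W' : Affine K₀) (σ : L ≃ₐ[K₀] L)
    (hσF : ∀ z ∈ F, σ z = z) (hσβ : σ β = β) {P : (W'⁄L).Point} (hP : InT F β P) :
    σ • P = P := by
  rcases P with _ | ⟨x, y, h⟩
  · rfl
  · obtain ⟨hx, y', hy', rfl⟩ := hP
    have h1 : σ x = x := hσF x hx
    have h2 : σ (β * y') = β * y' := by rw [map_mul, hσβ, hσF y' hy']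
    show Point.some (σ x) (σ (β * y')) _ = _
    simp only [h1, h2]

/-- `lam` is equivariant for automorphisms fixing `β`. -/
lemma lam_smul {β : L} (W' : Affine K₀) (σ : L ≃ₐ[K₀] L) (hσβ : σ β = β)
    (P : (W'⁄L).Point) : lam β (σ • P) = σ (lam β P) := by
  rcases P with _ | ⟨x, y, h⟩
  · show (1 : L) = σ 1
    rw [map_one]
  · show (σ y - β * σ x) / (σ y + β * σ x) = σ ((y - β * x) / (y + β * x))
    rw [map_div₀, map_sub, map_add, map_mul, hσβ]

end equivariance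

section branch

variable {L : Type*} [Field L] [IsAlgClosed L]

/-- A point of `T` on the `+`-branch above `x₀ ∈ F` with `|b| < |x₀| < 1`
(`F` closed under square roots of elements `≡ 1`). -/
lemma exists_branch_point_InT {A : ValuationSubring L} {W : Affine L} (hyp : ModelHyp A W)
    (hb : A.valuation W.a₄ < 1) (β : L) (hβ : β ^ 2 = W.a₂) (F : Subfield L)
    (ha : W.a₂ ∈ F) (hbF : W.a₄ ∈ F)
    (hsqrt : ∀ d η : L, d ∈ F → A.valuation (d - 1) < 1 → η ^ 2 = d →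
      A.valuation (η - 1) < 1 → η ∈ F)
    (x₀ : L) (hx₀F : x₀ ∈ F) (hx1 : A.valuation x₀ < 1)
    (hxb : A.valuation W.a₄ < A.valuation x₀) :
    ∃ (y₀ : L) (h : W.Nonsingular x₀ y₀), A.valuation (y₀ - β * x₀) < A.valuation x₀ ∧
      InT F β (Point.some x₀ y₀ h) := by
  have hx0 : x₀ ≠ 0 := by
    rintro rfl
    rw [map_zero] at hxb
    exact not_lt_zero hxb
  have hvx0 : A.valuation x₀ ≠ 0 := by simpa using hx0
  have hva := hyp.val_a_eq_one hb
  have ha0 : W.a₂ ≠ 0 := by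
    intro h
    rw [h, map_zero] at hva
    exact zero_ne_one hva
  have hvβ : A.valuation β = 1 := by
    have : A.valuation β ^ 2 = 1 := by rw [← map_pow, hβ, hva]
    exact (pow_eq_one_iff_left two_ne_zero).mp this
  -- `d = 1 + (x₀ + b / x₀) / a`
  set d : L := 1 + (x₀ + W.a₄ / x₀) / W.a₂ with hd
  have hdF : d ∈ F :=
    F.add_mem F.one_mem (F.div_mem (F.add_mem hx₀F (F.div_mem hbF hx₀F)) ha)
  have hd1 : A.valuation (d - 1) < 1 := by
    have e : d - 1 = (x₀ + W.a₄ / x₀) / W.a₂ := by rw [hd]; ring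
    rw [e, map_div₀, hva, div_one]
    apply Valuation.map_add_lt _ hx1
    rw [map_div₀, div_lt_one₀ (zero_lt_iff.2 hvx0)]
    exact hxb
  obtain ⟨η', hη'⟩ := IsAlgClosed.exists_pow_nat_eq d (n := 2) (by norm_num)
  obtain ⟨η, hη, hη1⟩ : ∃ η : L, η ^ 2 = d ∧ A.valuation (η - 1) < 1 := by
    have hprod : (η' - 1) * (η' + 1) = d - 1 := by rw [← hη']; ring
    by_cases h1 : A.valuation (η' - 1) < 1
    · exact ⟨η', hη', h1⟩
    · refine ⟨-η', by rw [neg_sq, hη'], ?_⟩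
      have h2 : A.valuation (η' + 1) < 1 := by
        by_contra h2
        push Not at h1 h2
        have : (1 : A.ValueGroup) ≤ A.valuation (η' - 1) * A.valuation (η' + 1) := by
          calc (1 : A.ValueGroup) = 1 * 1 := (one_mul 1).symm
            _ ≤ A.valuation (η' - 1) * A.valuation (η' + 1) := mul_le_mul' h1 h2
        rw [← map_mul, hprod] at this
        exact absurd hd1 (not_lt.2 this)
      have : -η' - 1 = -(η' + 1) := by ring
      rw [this, Valuation.map_neg]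
      exact h2
  have hηF : η ∈ F := hsqrt d η hdF hd1 hη hη1
  have hy₀ : (β * (x₀ * η)) ^ 2 = x₀ ^ 3 + W.a₂ * x₀ ^ 2 + W.a₄ * x₀ := by
    rw [mul_pow, mul_pow, hβ, hη, hd]
    field_simp
    ring
  have hns : W.Nonsingular x₀ (β * (x₀ * η)) :=
    (equation_iff_nonsingular_of_Δ_ne_zero hyp.Δ_ne_zero).1
      ((Fermat.Agent.S05.legendre_equation_iff hyp.a₁ hyp.a₃ hyp.a₆ x₀ _).2 hy₀)
  refine ⟨β * (x₀ * η), hns, ?_, hx₀F, x₀ * η, F.mul_mem hx₀F hηF, rfl⟩
  have e : β * (x₀ * η) - β * x₀ = β * x₀ * (η - 1) := by ring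
  rw [e, map_mul, map_mul, hvβ, one_mul]
  calc A.valuation x₀ * A.valuation (η - 1) < A.valuation x₀ * 1 :=
        mul_lt_mul_of_pos_left hη1 (zero_lt_iff.2 hvx0)
    _ = A.valuation x₀ := mul_one _

end branch

end Fermat.Agent.S44.C.H33
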