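/-
Row 38 (S44), package C (helper33): the core theorem on the S05 model.
`y² = x³ + a x² + b x` over `ℚ`, `|b| ≤ |p|²`, `p ∣ v(b²)`: an inertia-like automorphism `σ` which
fixes the `p`-th roots of unity and the `p`-th roots of `1 + p` fixes `E[p]` pointwise.
Plan: NOTES/plan/L_S44_C.md.
-/
import Fermat.Agent.S44.C.H33_Twist
import Fermat.Agent.S05.M1Final
import Fermat.Agent.S05.H15_Val

set_option autoImplicit false

namespace Fermat.Agent.S44.C.H33

open WeierstrassCurve WeierstrassCurve.Affine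
open Fermat.Agent.S05 (ModelHyp InE0 InE1 valUnit bUnit)

section core

variable {L : Type} [Field L] [DecidableEq L] [IsAlgClosed L] [CharZero L] [Algebra ℚ L]

/-- In every component of order dividing `p` there is a point of the twist subgroup `T`. -/
theorem exists_InT_same_component
    (A : ValuationSubring L) (W' : Affine ℚ) (hyp : ModelHyp A (W'⁄L))
    (hb : A.valuation (algebraMap ℚ L W'.a₄) < 1)
    (p : ℕ) (hodd : Odd p)
    (c : ℚ) (hc : A.valuation (algebraMap ℚ L c) ^ p = A.valuation (algebraMap ℚ L W'.a₄) ^ 2)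
    (β : L) (hβ : β ^ 2 = (W'⁄L).a₂) (F : Subfield L) (hQF : ∀ r : ℚ, algebraMap ℚ L r ∈ F)
    (hsqrt : ∀ d η : L, d ∈ F → A.valuation (d - 1) < 1 → η ^ 2 = d →
      A.valuation (η - 1) < 1 → η ∈ F)
    (φ : (W'⁄L).Point →+ Additive (Fermat.Agent.S05.CompGroup hyp))
    (hφ : ∀ (x y : L) (h : (W'⁄L).Nonsingular x y) (hx0 : x ≠ 0),
      A.valuation (W'⁄L).a₄ < A.valuation x → A.valuation x < 1 →
      A.valuation (y - β * x) < A.valuation x →
      φ (.some x y h) = Additive.ofMul (QuotientGroup.mk (valUnit A x hx0)))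
    (P : (W'⁄L).Point) (hP : p • P = 0) :
    ∃ R₀ : (W'⁄L).Point, InT F β R₀ ∧ φ R₀ = φ P := by
  have hp0 : p ≠ 0 := by
    rintro rfl
    exact absurd hodd (by decide)
  have hb' : A.valuation (W'⁄L).a₄ < 1 := hb
  have haF : (W'⁄L).a₂ ∈ F := hQF W'.a₂
  have hbF : (W'⁄L).a₄ ∈ F := hQF W'.a₄
  have hb0 : algebraMap ℚ L W'.a₄ ≠ 0 := hyp.b_ne
  have hvb0 : A.valuation (algebraMap ℚ L W'.a₄) ≠ 0 := by simpa using hb0
  have hc0 : algebraMap ℚ L c ≠ 0 := by
    intro h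
    rw [h, _root_.map_zero, zero_pow hp0] at hc
    exact pow_ne_zero 2 hvb0 hc.symm
  have hvc0 : A.valuation (algebraMap ℚ L c) ≠ 0 := by simpa using hc0
  have hvc1 : A.valuation (algebraMap ℚ L c) < 1 := by
    by_contra h
    push Not at h
    have h1 : 1 ≤ A.valuation (algebraMap ℚ L c) ^ p := one_le_pow₀ h
    rw [hc] at h1
    have h2 : A.valuation (algebraMap ℚ L W'.a₄) ^ 2 < 1 := pow_lt_one₀ zero_le hb two_ne_zero
    exact absurd h1 (not_le.2 h2)
  have hβ0 : β ≠ 0 := by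
    intro h
    have hva := hyp.val_a_eq_one hb'
    rw [← hβ, h] at hva
    simp at hva
  set cU : (A.ValueGroup)ˣ := valUnit A (algebraMap ℚ L c) hc0 with hcU
  have hcUp : cU ^ p = bUnit hyp ^ 2 := by
    apply Units.ext
    simp only [hcU, valUnit, bUnit, Units.val_pow_eq_pow_val, Units.val_mk0]
    exact hc
  -- small case: `0 < r`, `2 r < p`
  have small : ∀ r : ℕ, 0 < r → 2 * r < p → ∃ P₀ : (W'⁄L).Point, InT F β P₀ ∧
      φ P₀ = Additive.ofMul (QuotientGroup.mk (cU ^ r)) := by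
    intro r hr0 hr
    have hx1 : A.valuation ((algebraMap ℚ L c) ^ r) < 1 := by
      rw [map_pow]
      exact pow_lt_one₀ zero_le hvc1 hr0.ne'
    have hxb : A.valuation (W'⁄L).a₄ < A.valuation ((algebraMap ℚ L c) ^ r) := by
      by_contra h
      push Not at h
      have h2 : A.valuation ((algebraMap ℚ L c) ^ r) ^ 2 ≤ A.valuation (W'⁄L).a₄ ^ 2 :=
        pow_le_pow_left₀ zero_le h 2
      have h3 : A.valuation (algebraMap ℚ L c) ^ p < A.valuation (algebraMap ℚ L c) ^ (2 * r) :=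
        pow_lt_pow_right_of_lt_one₀ (zero_lt_iff.2 hvc0) hvc1 hr
      rw [map_pow, ← pow_mul, mul_comm r 2] at h2
      exact absurd (h3.trans_le h2) (by rw [hc]; exact lt_irrefl _)
    have hxF : (algebraMap ℚ L c) ^ r ∈ F := F.pow_mem (hQF c) r
    obtain ⟨y₀, hns, hbr, hT⟩ := exists_branch_point_InT hyp hb' β hβ F haF hbF hsqrt
      _ hxF hx1 hxb
    refine ⟨Point.some _ _ hns, hT, ?_⟩
    rw [hφ _ _ hns (pow_ne_zero _ hc0) hxb hx1 hbr]
    congr 2
    apply Units.ext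
    simp [hcU, valUnit, map_pow]
  -- all residues `r < p`
  have allr : ∀ r : ℕ, r < p → ∃ P₀ : (W'⁄L).Point, InT F β P₀ ∧
      φ P₀ = Additive.ofMul (QuotientGroup.mk (cU ^ r)) := by
    intro r hr
    rcases Nat.eq_zero_or_pos r with rfl | hr0
    · exact ⟨0, InT_zero F β, by simp⟩
    rcases lt_or_gt_of_ne (show 2 * r ≠ p from fun h => by
        obtain ⟨k, hk⟩ := hodd; omega) with h2 | h2
    · exact small r hr0 h2
    · obtain ⟨P₀, hfix, hcomp⟩ := small (p - r) (by omega) (by omega)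
      refine ⟨-P₀, InT_neg hyp.a₁ hyp.a₃ hfix, ?_⟩
      rw [map_neg, hcomp, ← ofMul_inv, ← QuotientGroup.mk_inv]
      congr 1
      rw [QuotientGroup.eq]
      rw [inv_inv, ← pow_add, Nat.sub_add_cancel hr.le, hcUp]
      exact Subgroup.mem_zpowers _
  -- the component of `P`
  obtain ⟨g, hg⟩ := QuotientGroup.mk_surjective (Additive.toMul (φ P))
  have hgp : g ^ p ∈ Subgroup.zpowers (bUnit hyp ^ 2) := by
    rw [← QuotientGroup.eq_one_iff, QuotientGroup.mk_pow, hg, ← toMul_nsmul, ← map_nsmul, hP,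
      _root_.map_zero, toMul_zero]
  obtain ⟨k, hk⟩ := Subgroup.mem_zpowers_iff.1 hgp
  have hgk : g = cU ^ k := by
    have : g ^ p = (cU ^ k) ^ p := by
      rw [← hk, ← hcUp, ← zpow_natCast (cU ^ k) p, ← zpow_natCast cU p, ← zpow_mul, ← zpow_mul,
        mul_comm]
    exact pow_left_injective hp0 this
  have hpZ : (p : ℤ) ≠ 0 := by exact_mod_cast hp0
  obtain ⟨P₀, hfix, hcomp⟩ := allr (k % (p : ℤ)).toNat (by
    have := Int.emod_lt_of_pos k (show (0 : ℤ) < p by omega)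
    have := Int.emod_nonneg k hpZ
    omega)
  refine ⟨P₀, hfix, ?_⟩
  rw [hcomp]
  apply Additive.toMul.injective
  rw [toMul_ofMul, ← hg, hgk, QuotientGroup.eq]
  have hkr : cU ^ k = (bUnit hyp ^ 2) ^ (k / (p : ℤ)) * cU ^ (k % (p : ℤ)).toNat := by
    rw [← hcUp, ← zpow_natCast cU p, ← zpow_mul, ← zpow_natCast cU (k % (p : ℤ)).toNat,
      Int.toNat_of_nonneg (Int.emod_nonneg k hpZ), ← zpow_add, Int.mul_ediv_add_emod]
  rw [hkr, mul_comm, mul_inv_cancel_right]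
  exact Subgroup.zpow_mem _ (Subgroup.mem_zpowers _) _

/-- **Core theorem on the model** (peu ramifié with `u = 1 + p`). -/
theorem core_peu (hV1 : Stmt_V1) (hV3 : Stmt_V3) (hF1 : Stmt_F1) (hF2 : Stmt_F2)
    (hF3 : Stmt_F3) (hF4 : Stmt_F4) (hM : Stmt_M) (hL4 : Stmt_L4)
    (halg : Algebra.IsAlgebraic ℚ L)
    (A : ValuationSubring L) (W' : Affine ℚ) (hyp : ModelHyp A (W'⁄L))
    (p : ℕ) (hp : p.Prime) (hp2 : p ≠ 2) (hpA : A.valuation (p : L) < 1)
    (hb2 : A.valuation (algebraMap ℚ L W'.a₄) ≤ A.valuation (p : L) ^ 2)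
    (c : ℚ) (hc : A.valuation (algebraMap ℚ L c) ^ p = A.valuation (algebraMap ℚ L W'.a₄) ^ 2)
    (σ : L ≃ₐ[ℚ] L) (hσv : ∀ x, A.valuation (σ x) = A.valuation x)
    (hσr : ∀ x, A.valuation x ≤ 1 → A.valuation (σ x - x) < 1)
    (hσζ : ∀ ζ : L, ζ ^ p = 1 → σ ζ = ζ)
    (hσω : ∀ z : L, z ^ p = 1 + (p : L) → σ z = z)
    (P : (W'⁄L).Point) (hP : p • P = 0) : σ • P = P := by
  -- basic facts on `p`
  have hp0 : (p : L) ≠ 0 := Nat.cast_ne_zero.2 hp.ne_zero
  have hvp0 : A.valuation (p : L) ≠ 0 := by simpa using hp0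
  have hvp_pos : 0 < A.valuation (p : L) := zero_lt_iff.2 hvp0
  have hvp2 : A.valuation (p : L) ^ 2 < A.valuation (p : L) := by
    rw [pow_two]
    calc A.valuation (p : L) * A.valuation (p : L) < A.valuation (p : L) * 1 :=
          mul_lt_mul_of_pos_left hpA hvp_pos
      _ = A.valuation (p : L) := mul_one _
  have hpnu : (p : L) ∈ A.nonunits := (ValuationSubring.mem_nonunits_iff A).2 hpA
  have hodd : Odd p := hp.odd_of_ne_two hp2
  have hb : A.valuation (W'⁄L).a₄ < 1 := lt_of_le_of_lt hb2 (lt_trans hvp2 hpA)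
  have hbp : A.valuation (W'⁄L).a₄ < A.valuation (p : L) := lt_of_le_of_lt hb2 hvp2
  have hb2' : A.valuation (W'⁄L).a₄ ≤ A.valuation (p : L) ^ 2 := hb2
  -- `β`
  obtain ⟨β, hβ⟩ := IsAlgClosed.exists_pow_nat_eq ((W'⁄L).a₂) (n := 2) (by norm_num)
  have hva := hyp.val_a_eq_one hb
  have hvβ : A.valuation β = 1 := by
    have : A.valuation β ^ 2 = 1 := by rw [← map_pow, hβ, hva]
    exact (pow_eq_one_iff_left two_ne_zero).mp this
  have hβ0 : β ≠ 0 := by
    intro h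
    rw [h, map_zero] at hvβ
    exact zero_ne_one hvβ
  have hσβ : σ β = β := by
    have hsq : (σ β) ^ 2 = β ^ 2 := by
      rw [← map_pow, hβ]
      exact σ.commutes _
    rcases eq_or_eq_neg_of_sq_eq_sq _ _ hsq with h | h
    · exact h
    · exfalso
      have := hσr β hvβ.le
      rw [h] at this
      have e : -β - β = -(2 * β) := by ring
      rw [e, Valuation.map_neg, map_mul, hyp.two, one_mul, hvβ] at this
      exact lt_irrefl _ this
  -- the field `F`
  obtain ⟨F, hF⟩ := hF1 L halg A p hp hpA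
  have hQF : ∀ r : ℚ, algebraMap ℚ L r ∈ F := fun r =>
    (hF _).2 (fun k => ⟨r, by rw [sub_self, map_zero]; exact zero_le⟩)
  have hσF : ∀ z ∈ F, σ z = z := fun z hz => hF2 L halg A p hp hpA σ hσv z ((hF z).1 hz)
  have hsqrt : ∀ d η : L, d ∈ F → A.valuation (d - 1) < 1 → η ^ 2 = d →
      A.valuation (η - 1) < 1 → η ∈ F := fun d η hd h1 h2 h3 =>
    (hF η).2 (hF3 L A p hp hp2 hpA d η ((hF d).1 hd) h1 h2 h3)
  have haF : (W'⁄L).a₂ ∈ F := hQF W'.a₂
  have hbF : (W'⁄L).a₄ ∈ F := hQF W'.a₄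
  -- the approximate character and the component map
  obtain ⟨hMunit, hMneg, hME1, hMadd⟩ := hM L A (W'⁄L) hyp hb β hβ
  obtain ⟨φ, hker, hφ⟩ := Fermat.Agent.S05.M1 A (W'⁄L) hyp hb β hβ
  -- the point `R₀` of `T` in the component of `P`
  obtain ⟨R₀, hR₀T, hR₀φ⟩ := exists_InT_same_component A W' hyp hb p hodd c hc β hβ F hQF hsqrt
    φ hφ P hP
  have hσR₀ : σ • R₀ = R₀ := smul_eq_of_InT W' σ hσF hσβ hR₀T
  -- `Q = P - R₀ ∈ E₀`
  obtain ⟨Q, hQdef⟩ : ∃ Q, Q = P - R₀ := ⟨_, rfl⟩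
  have hPQ : P = Q + R₀ := by rw [hQdef]; abel
  have hQ0 : InE0 A Q := by rw [← hker, hQdef, map_sub, hR₀φ, sub_self]
  have hkQ0 : ∀ k : ℕ, InE0 A (k • Q) := fun k => by
    rw [← hker, map_nsmul, (hker Q).2 hQ0, nsmul_zero]
  have hpQ : p • Q = -(p • R₀) := by rw [hQdef, smul_sub, hP, zero_sub]
  have hpQT : InT F β (p • Q) := by
    rw [hpQ]
    exact InT_neg hyp.a₁ hyp.a₃ (InT_nsmul hyp.a₁ hyp.a₃ hβ hβ0 haF hbF hR₀T p)
  have hσpQ : σ • (p • Q) = p • Q := smul_eq_of_InT W' σ hσF hσβ hpQT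
  -- `g = lam Q`, `w = lam (p Q)`
  obtain ⟨g, hgdef⟩ : ∃ g, g = lam β Q := ⟨_, rfl⟩
  have hg1 : A.valuation g = 1 := by rw [hgdef]; exact hMunit Q hQ0
  have hg0 : g ≠ 0 := by
    intro h
    rw [h, map_zero] at hg1
    exact zero_ne_one hg1
  obtain ⟨w, hwdef⟩ : ∃ w, w = lam β (p • Q) := ⟨_, rfl⟩
  have hwF : w ∈ F := by rw [hwdef]; exact lam_mem_of_InT hβ0 hpQT
  have hw1 : A.valuation w = 1 := by rw [hwdef]; exact hMunit _ (hkQ0 p)
  have hgsub : A.valuation (g - 1) ≤ 1 :=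
    (A.valuation.map_sub _ _).trans (max_le hg1.le (by rw [map_one]))
  have hnsmul : ∀ k : ℕ, A.valuation (lam β (k • Q) - g ^ k) ≤ A.valuation (W'⁄L).a₄ := by
    intro k
    induction k with
    | zero => rw [zero_smul, lam_zero, pow_zero, sub_self, map_zero]; exact zero_le
    | succ k ih =>
      rw [succ_nsmul, pow_succ]
      have h1 := hMadd (k • Q) Q (hkQ0 k) hQ0
      rw [← hgdef] at h1
      have h3 : A.valuation (lam β (k • Q + Q) - lam β (k • Q) * g) ≤ A.valuation (W'⁄L).a₄ :=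
        h1.trans (mul_le_of_le_one_right' hgsub)
      have e : lam β (k • Q + Q) - g ^ k * g =
          (lam β (k • Q + Q) - lam β (k • Q) * g) + (lam β (k • Q) - g ^ k) * g := by ring
      rw [e]
      refine (A.valuation.map_add _ _).trans (max_le h3 ?_)
      rw [map_mul, hg1, mul_one]
      exact ih
  have hgw : A.valuation (w - g ^ p) ≤ A.valuation (p : L) ^ 2 := by
    rw [hwdef]
    exact (hnsmul p).trans hb2'
  -- `w ≡ t ^ p (1 + p) ^ n` mod `p²`
  obtain ⟨t, htp, htw⟩ := hF4 L A p hp hpA w ((hF w).1 hwF) hw1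
  obtain ⟨n, hn⟩ := hV3 p hp t htp
  have ht1 : A.valuation (t : L) = 1 :=
    Fermat.Agent.S05.H15.valuation_intCast_eq_one_of_not_dvd hp hpnu htp
  have htn : A.valuation ((t : L) - (t : L) ^ p * (1 + (p : L)) ^ n) ≤
      A.valuation (p : L) ^ 2 := by
    obtain ⟨k, hk⟩ := hn
    have e : (t : L) - (t : L) ^ p * (1 + (p : L)) ^ n = (p : L) ^ 2 * (k : L) := by
      have := congrArg (Int.cast : ℤ → L) hk
      push_cast at this
      exact this
    rw [e, map_mul, map_pow]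
    exact mul_le_of_le_one_right' (Fermat.Agent.S05.H15.valuation_intCast_le_one A k)
  obtain ⟨ω, hω⟩ := IsAlgClosed.exists_pow_nat_eq (1 + (p : L)) (n := p) hp.pos
  have hσω' : σ ω = ω := hσω ω hω
  have hv1p : A.valuation (1 + (p : L)) = 1 := by
    rw [Valuation.map_add_eq_of_lt_left _ (by rw [map_one]; exact hpA), map_one]
  have hvω : A.valuation ω = 1 := by
    have : A.valuation ω ^ p = 1 := by rw [← map_pow, hω, hv1p]
    exact (pow_eq_one_iff_left hp.ne_zero).mp this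
  obtain ⟨g₀, hg₀def⟩ : ∃ g₀, g₀ = (t : L) * ω ^ n := ⟨_, rfl⟩
  have hg₀p : g₀ ^ p = (t : L) ^ p * (1 + (p : L)) ^ n := by
    rw [hg₀def, mul_pow, ← pow_mul, mul_comm n p, pow_mul, hω]
  have hvg₀ : A.valuation g₀ = 1 := by
    rw [hg₀def, map_mul, map_pow, ht1, hvω, one_pow, one_mul]
  have hg₀0 : g₀ ≠ 0 := by
    intro h
    rw [h, map_zero] at hvg₀
    exact zero_ne_one hvg₀
  have hσg₀ : σ g₀ = g₀ := by
    rw [hg₀def, map_mul, map_pow, hσω', map_intCast]
  have h1 : A.valuation (g ^ p - g₀ ^ p) ≤ A.valuation (p : L) ^ 2 := by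
    have e : g ^ p - g₀ ^ p = -(w - g ^ p) + ((w - (t : L)) +
        ((t : L) - (t : L) ^ p * (1 + (p : L)) ^ n)) := by rw [hg₀p]; ring
    rw [e]
    refine (A.valuation.map_add _ _).trans (max_le ?_ ?_)
    · rw [Valuation.map_neg]; exact hgw
    · exact (A.valuation.map_add _ _).trans (max_le htw htn)
  obtain ⟨g₂, hg₂def⟩ : ∃ g₂, g₂ = g / g₀ := ⟨_, rfl⟩
  have hgg : g = g₂ * g₀ := by rw [hg₂def, div_mul_cancel₀ _ hg₀0]
  have hg₂ : A.valuation (g₂ ^ p - 1) ≤ A.valuation (p : L) ^ 2 := by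
    have e : g₂ ^ p - 1 = (g ^ p - g₀ ^ p) / g₀ ^ p := by
      rw [hg₂def, div_pow, sub_div, div_self (pow_ne_zero _ hg₀0)]
    rw [e, map_div₀, map_pow, hvg₀, one_pow, div_one]
    exact h1
  obtain ⟨ζ, hζ, hζg⟩ := hV1 L A.ValueGroup A.valuation p hp g₂
  have h2 : A.valuation (g₂ - ζ) ≤ A.valuation (p : L) := by
    have h := hζg.trans hg₂
    rw [pow_two] at h
    exact le_of_mul_le_mul_right h hvp_pos
  have hσζ' : σ ζ = ζ := hσζ ζ hζ
  have h3 : A.valuation (σ g₂ - g₂) ≤ A.valuation (p : L) := by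
    have e : σ g₂ - g₂ = σ (g₂ - ζ) - (g₂ - ζ) := by rw [map_sub, hσζ']; ring
    rw [e]
    exact (A.valuation.map_sub _ _).trans (max_le (by rw [hσv]; exact h2) h2)
  have h4 : A.valuation (σ g - g) ≤ A.valuation (p : L) := by
    have e : σ g - g = (σ g₂ - g₂) * g₀ := by
      rw [hgg, map_mul, hσg₀]; ring
    rw [e, map_mul, hvg₀, mul_one]
    exact h3
  -- `S = σ Q - Q ∈ E₁[p]`
  have hI := Fermat.Agent.S05.inertiaLike_smul A W' σ hσv hσr
  have hS1' : InE1 A (σ • Q - Q) := Fermat.Agent.S05.H5.F2 A (W'⁄L) hyp _ _ hI Q hQ0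
  obtain ⟨S, hSdef⟩ : ∃ S, S = σ • Q - Q := ⟨_, rfl⟩
  have hS1 : InE1 A S := by rw [hSdef]; exact hS1'
  have hS0 : InE0 A S := Fermat.Agent.S05.H55.inE0_of_inE1 A S hS1
  have hpS : p • S = 0 := by
    have e : p • (σ • Q) = σ • (p • Q) :=
      (map_nsmul (DistribSMul.toAddMonoidHom (W'⁄L).Point σ) p Q).symm
    rw [hSdef, smul_sub, e, hσpQ, sub_self]
  have hσQ : σ • Q = Q + S := by rw [hSdef]; abel
  have hlamσ : lam β (σ • Q) = σ g := by rw [hgdef]; exact lam_smul W' σ hσβ Q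
  have h5 := hMadd Q S hQ0 hS0
  rw [← hσQ, hlamσ, ← hgdef] at h5
  have hδ1 : A.valuation (lam β S - 1) < 1 := hME1 S hS1
  have h6 : A.valuation (σ g - g * lam β S) ≤ A.valuation (p : L) :=
    h5.trans ((mul_le_of_le_one_right' hδ1.le).trans hbp.le)
  have h7 : A.valuation (lam β S - 1) ≤ A.valuation (p : L) := by
    have e : g * (lam β S - 1) = -(σ g - g * lam β S) + (σ g - g) := by ring
    have h := (A.valuation.map_add (-(σ g - g * lam β S)) (σ g - g)).trans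
      (max_le (by rw [Valuation.map_neg]; exact h6) h4)
    rw [← e, map_mul, hg1, one_mul] at h
    exact h
  have h8 : A.valuation (lam β S - 1) ^ (p - 1) < A.valuation (p : L) := by
    have hp3 : 2 ≤ p - 1 := by
      have := hp.two_le
      have : p ≠ 2 := hp2
      omega
    calc A.valuation (lam β S - 1) ^ (p - 1) ≤ A.valuation (p : L) ^ (p - 1) :=
          pow_le_pow_left₀ zero_le h7 _
      _ ≤ A.valuation (p : L) ^ 2 := pow_le_pow_of_le_one zero_le hpA.le hp3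
      _ < A.valuation (p : L) := hvp2
  have hS : S = 0 := hL4 L A (W'⁄L) hyp β hβ p hp hpA hbp S hS1 hpS h8
  have hσQ' : σ • Q = Q := by rw [hσQ, hS, add_zero]
  calc σ • P = σ • (Q + R₀) := by rw [hPQ]
    _ = σ • Q + σ • R₀ := smul_add σ Q R₀
    _ = Q + R₀ := by rw [hσQ', hσR₀]
    _ = P := hPQ.symm

end core

end Fermat.Agent.S44.C.H33
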