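/-
Row 38 (S44), package C (helper33): linear algebra for clause (1).
If `f` is an endomorphism of a two-dimensional space `V` acting trivially on `V / T`, `T ≠ ⊤`,
then `f` acts on `T` through `det f`.
-/
import Mathlib

set_option autoImplicit false

namespace Fermat.Agent.S44.C.H33

open Module

/-- An endomorphism of a plane which is trivial modulo a proper subspace `T` acts on `T` by its
determinant. -/
theorem apply_eq_det_smul {K V : Type*} [Field K] [AddCommGroup V] [Module K V]
    (hdim : Module.finrank K V = 2) (T : Submodule K V) (hT : T ≠ ⊤) (f : V →ₗ[K] V)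
    (hf : ∀ x, f x - x ∈ T) {x : V} (hx : x ∈ T) : f x = LinearMap.det f • x := by
  by_cases hx0 : x = 0
  · rw [hx0, map_zero, smul_zero]
  -- a vector outside `T`
  obtain ⟨y, hy⟩ : ∃ y : V, y ∉ T := by
    by_contra h
    push Not at h
    exact hT (eq_top_iff.2 fun z _ => h z)
  have hli : LinearIndependent K ![x, y] := by
    rw [LinearIndependent.pair_iff]
    intro s t hst
    have ht : t = 0 := by
      by_contra ht
      apply hy
      have e : y = t⁻¹ • (-(s • x)) := by
        have : t • y = -(s • x) := by
          rw [eq_neg_iff_add_eq_zero, add_comm]; exact hst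
        rw [← this, smul_smul, inv_mul_cancel₀ ht, one_smul]
      rw [e]
      exact T.smul_mem _ (T.neg_mem (T.smul_mem _ hx))
    refine ⟨?_, ht⟩
    rw [ht, zero_smul, add_zero] at hst
    exact (smul_eq_zero.1 hst).resolve_right hx0
  have hcard : Fintype.card (Fin 2) = Module.finrank K V := by rw [hdim]; rfl
  have : FiniteDimensional K V := FiniteDimensional.of_finrank_pos (by rw [hdim]; norm_num)
  set b : Basis (Fin 2) K V := basisOfLinearIndependentOfCardEqFinrank hli hcard with hb
  have hb0 : b 0 = x := by
    rw [hb, coe_basisOfLinearIndependentOfCardEqFinrank]; rfl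
  have hb1 : b 1 = y := by
    rw [hb, coe_basisOfLinearIndependentOfCardEqFinrank]; rfl
  -- elements of `T` have second coordinate `0`
  have hT1 : ∀ z ∈ T, b.repr z 1 = 0 := by
    intro z hz
    by_contra h
    apply hy
    have hsum : z = b.repr z 0 • x + b.repr z 1 • y := by
      conv_lhs => rw [← b.sum_repr z]
      rw [Fin.sum_univ_two, hb0, hb1]
    have e : y = (b.repr z 1)⁻¹ • (z - b.repr z 0 • x) := by
      have : z - b.repr z 0 • x = b.repr z 1 • y := by
        rw [sub_eq_iff_eq_add, add_comm]; exact hsum
      rw [this, smul_smul, inv_mul_cancel₀ h, one_smul]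
    rw [e]
    exact T.smul_mem _ (T.sub_mem hz (T.smul_mem _ hx))
  have hfx : f x ∈ T := by
    have := T.add_mem (hf x) hx
    rwa [sub_add_cancel] at this
  -- the matrix of `f`
  have h10 : b.repr (f x) 1 = 0 := hT1 _ hfx
  have h11 : b.repr (f y) 1 = 1 := by
    have h1 := hT1 _ (hf y)
    rw [map_sub, Finsupp.sub_apply, sub_eq_zero] at h1
    rw [h1, ← hb1, b.repr_self, Finsupp.single_eq_same]
  have hdet : LinearMap.det f = b.repr (f x) 0 := by
    rw [← LinearMap.det_toMatrix b, Matrix.det_fin_two]
    simp only [LinearMap.toMatrix_apply, hb0, hb1, h10, h11, mul_one, mul_zero, sub_zero]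
  have hsum : f x = b.repr (f x) 0 • x + b.repr (f x) 1 • y := by
    conv_lhs => rw [← b.sum_repr (f x)]
    rw [Fin.sum_univ_two, hb0, hb1]
  rw [hdet]
  rw [h10, zero_smul, add_zero] at hsum
  exact hsum

end Fermat.Agent.S44.C.H33
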