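/-
Row 38 (S44), package C (helper33): `Fermat.Agent.S44.Stmt_FreyFiniteAtP` from the leaves.
Plan: NOTES/plan/L_S44_C.md.

* `arith_pp` : arithmetic of the Frey package at `p ∣ abc` (S13 `arith_p` + `|b| ≤ |p|²`);
* `stmt_FreyFiniteAtP_of` : package C from the leaves V1, V3, F1-F4, M, L4.
-/
import Fermat.Agent.S44.C.H33_Core
import Fermat.Agent.S44.C.H33_Det
import Fermat.Agent.S44.Defs
import Fermat.Agent.S13.H87_PKernelFinal
import Fermat.Agent.Tate.T6.H97_Root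
import Fermat.Agent.L.H52_DetCycFrey
import Fermat.Agent.Lib.EllFinite.H46_Finrank

set_option autoImplicit false

namespace Fermat.Agent.S44.C.H33

open WeierstrassCurve WeierstrassCurve.Affine WeierstrassCurve.Affine.Point
open Fermat.Agent.S05 (ModelHyp modelOf)
open Fermat.Agent.S13 (Qbar Gal Vp)

/-- `|n| ≤ |q|²` for an integer `n` divisible by `q²`. -/
lemma val_intCast_le_sq (A : ValuationSubring Qbar) (q : ℕ) {n : ℤ} (h : (q : ℤ) ^ 2 ∣ n) :
    A.valuation ((n : ℤ) : Qbar) ≤ A.valuation ((q : ℕ) : Qbar) ^ 2 := by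
  obtain ⟨k, rfl⟩ := h
  push_cast
  rw [map_mul, map_pow]
  exact mul_le_of_le_one_right' (Fermat.Agent.S05.H15.valuation_intCast_le_one A k)

/-- `q² ∣ x ^ n * y` if `q ∣ x` and `2 ≤ n`. -/
lemma sq_dvd_pow_mul {q x y : ℤ} {n : ℕ} (hn : 2 ≤ n) (h : q ∣ x) : q ^ 2 ∣ x ^ n * y :=
  Dvd.dvd.mul_right ((pow_dvd_pow_of_dvd h 2).trans (pow_dvd_pow x hn)) y

open Fermat.Agent.S05.H15 in
/-- Arithmetic of the Frey package at the prime `p`, `p ∣ abc`: the S05 model has
`|b| ≤ |p|²` and `|c₀| ^ p = |b|²`. -/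
theorem arith_pp (P : FreyPackage) (hdvd : (P.p : ℤ) ∣ P.a * P.b * P.c)
    (A : ValuationSubring Qbar) (hA : A.LiesOverPrime P.p) :
    ∃ e c : ℚ, e ^ 3 + (4 * P.freyCurve.a₂ + 1) * e ^ 2 + 16 * P.freyCurve.a₄ * e = 0 ∧
      ModelHyp A ((modelOf P.freyCurve e)⁄Qbar) ∧
      A.valuation (algebraMap ℚ Qbar e) ≤ 1 ∧
      A.valuation (algebraMap ℚ Qbar c) ^ P.p =
        A.valuation (algebraMap ℚ Qbar (modelOf P.freyCurve e).a₄) ^ 2 ∧
      A.valuation (algebraMap ℚ Qbar (modelOf P.freyCurve e).a₄) ≤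
        A.valuation ((P.p : ℕ) : Qbar) ^ 2 := by
  have hq := P.pp
  have hq2 : P.p ≠ 2 := by have := P.hp5; omega
  have hn2 : 2 ≤ P.p := by have := P.hp5; omega
  have hqK : ((P.p : ℕ) : Qbar) ∈ A.nonunits := hA
  have hpZ : Prime (P.p : ℤ) := Nat.prime_iff_prime_int.mp hq
  have h4 : 4 * P.freyCurve.a₂ + 1 = ((P.b ^ P.p - P.a ^ P.p : ℤ) : ℚ) := by
    simp only [FreyPackage.freyCurve]
    push_cast
    ring
  have h16 : 16 * P.freyCurve.a₄ = ((-(P.a ^ P.p * P.b ^ P.p) : ℤ) : ℚ) := by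
    simp only [FreyPackage.freyCurve]
    push_cast
    ring
  have hval2 : A.valuation (2 : Qbar) = 1 := by
    have := valuation_natCast_eq_one_of_ne (A := A) hq hqK Nat.prime_two (Ne.symm hq2)
    simpa using this
  have hcast : ∀ n : ℤ, algebraMap ℚ Qbar ((n : ℤ) : ℚ) = ((n : ℤ) : Qbar) := fun n => by simp
  by_cases hc : (P.p : ℤ) ∣ P.c
  · -- case `p ∣ c`: `e = a^p`, `c₀ = (a c)^2`
    have hqb : ¬ (P.p : ℤ) ∣ P.b := fun h =>
      Fermat.Agent.S05.H15.not_dvd_of_gcd_eq_one hq P.hgcdbc h hc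
    have ha4 : (modelOf P.freyCurve ((P.a ^ P.p : ℤ) : ℚ)).a₄ =
        ((P.a ^ P.p * P.c ^ P.p : ℤ) : ℚ) := by
      simp only [modelOf]; rw [h4, h16, ← P.hFLT]; push_cast; ring
    refine ⟨((P.a ^ P.p : ℤ) : ℚ), (((P.a * P.c) ^ 2 : ℤ) : ℚ), ?_, ?_, ?_, ?_, ?_⟩
    · rw [h4, h16]; push_cast; ring
    · have ha2 : (modelOf P.freyCurve ((P.a ^ P.p : ℤ) : ℚ)).a₂ =
          ((P.b ^ P.p + 2 * P.a ^ P.p : ℤ) : ℚ) := by
        simp only [modelOf]; rw [h4]; push_cast; ring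
      refine ⟨by simp [modelOf], by simp [modelOf], by simp [modelOf], ?_, ?_, ?_, hval2, ?_⟩
      · show A.valuation (algebraMap ℚ Qbar _) ≤ 1
        rw [ha2, hcast]; exact valuation_intCast_le_one A _
      · show A.valuation (algebraMap ℚ Qbar _) ≤ 1
        rw [ha4, hcast]; exact valuation_intCast_le_one A _
      · show algebraMap ℚ Qbar _ ≠ 0
        rw [ha4, hcast]
        have : (P.a ^ P.p * P.c ^ P.p : ℤ) ≠ 0 :=
          mul_ne_zero (pow_ne_zero _ P.ha0) (pow_ne_zero _ P.hc0)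
        exact_mod_cast this
      · show A.valuation ((algebraMap ℚ Qbar _) ^ 2 - 4 * (algebraMap ℚ Qbar _)) = 1
        rw [ha2, ha4, hcast, hcast]
        have : (((P.b ^ P.p + 2 * P.a ^ P.p : ℤ) : Qbar)) ^ 2
            - 4 * ((P.a ^ P.p * P.c ^ P.p : ℤ) : Qbar) = (((P.b ^ P.p) ^ 2 : ℤ) : Qbar) := by
          rw [← P.hFLT]; push_cast; ring
        rw [this]
        exact valuation_intCast_eq_one_of_not_dvd hq hqK
          (Fermat.Agent.S05.H15.not_dvd_pow hq (Fermat.Agent.S05.H15.not_dvd_pow hq hqb _) _)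
    · rw [hcast]; exact valuation_intCast_le_one A _
    · rw [ha4, hcast, hcast, ← map_pow, ← map_pow]
      congr 1
      push_cast
      ring
    · rw [ha4, hcast]
      apply val_intCast_le_sq A P.p
      rw [mul_comm]
      exact sq_dvd_pow_mul hn2 hc
  · -- case `p ∤ c`: `e = 0`, `c₀ = (a b)^2`
    have hab : (P.p : ℤ) ∣ P.a * P.b := by
      rcases hpZ.dvd_or_dvd hdvd with h | h
      · exact h
      · exact absurd h hc
    have ha4 : (modelOf P.freyCurve 0).a₄ = ((-(P.a ^ P.p * P.b ^ P.p) : ℤ) : ℚ) := by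
      simp only [modelOf]; rw [h16]; push_cast; ring
    refine ⟨0, (((P.a * P.b) ^ 2 : ℤ) : ℚ), ?_, ?_, ?_, ?_, ?_⟩
    · have hp0 : P.p ≠ 0 := P.hp0
      simp
    · have ha2 : (modelOf P.freyCurve 0).a₂ = ((P.b ^ P.p - P.a ^ P.p : ℤ) : ℚ) := by
        simp only [modelOf]; rw [h4]; push_cast; ring
      refine ⟨by simp [modelOf], by simp [modelOf], by simp [modelOf], ?_, ?_, ?_, hval2, ?_⟩
      · show A.valuation (algebraMap ℚ Qbar _) ≤ 1
        rw [ha2, hcast]; exact valuation_intCast_le_one A _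
      · show A.valuation (algebraMap ℚ Qbar _) ≤ 1
        rw [ha4, hcast]; exact valuation_intCast_le_one A _
      · show algebraMap ℚ Qbar _ ≠ 0
        rw [ha4, hcast]
        have : (-(P.a ^ P.p * P.b ^ P.p) : ℤ) ≠ 0 :=
          neg_ne_zero.2 (mul_ne_zero (pow_ne_zero _ P.ha0) (pow_ne_zero _ P.hb0))
        exact_mod_cast this
      · show A.valuation ((algebraMap ℚ Qbar _) ^ 2 - 4 * (algebraMap ℚ Qbar _)) = 1
        rw [ha2, ha4, hcast, hcast]
        have : (((P.b ^ P.p - P.a ^ P.p : ℤ) : Qbar)) ^ 2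
            - 4 * ((-(P.a ^ P.p * P.b ^ P.p) : ℤ) : Qbar) = (((P.c ^ P.p) ^ 2 : ℤ) : Qbar) := by
          rw [← P.hFLT]; push_cast; ring
        rw [this]
        exact valuation_intCast_eq_one_of_not_dvd hq hqK
          (Fermat.Agent.S05.H15.not_dvd_pow hq (Fermat.Agent.S05.H15.not_dvd_pow hq hc _) _)
    · rw [_root_.map_zero, _root_.map_zero]; exact zero_le_one
    · rw [ha4, hcast, hcast, ← map_pow, ← map_pow]
      congr 1
      push_cast
      ring
    · rw [ha4, hcast]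
      apply val_intCast_le_sq A P.p
      rw [dvd_neg]
      rcases hpZ.dvd_or_dvd hab with h | h
      · exact sq_dvd_pow_mul hn2 h
      · rw [mul_comm]; exact sq_dvd_pow_mul hn2 h

/-- **Package C from the leaves.** -/
theorem stmt_FreyFiniteAtP_of (hV1 : Stmt_V1) (hV3 : Stmt_V3) (hF1 : Stmt_F1) (hF2 : Stmt_F2)
    (hF3 : Stmt_F3) (hF4 : Stmt_F4) (hM : Stmt_M) (hL4 : Stmt_L4) :
    Fermat.Agent.S44.Stmt_FreyFiniteAtP := by
  intro P hdvd A hA
  haveI : Fact P.p.Prime := ⟨P.pp⟩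
  have hp2 : P.p ≠ 2 := by have := P.hp5; omega
  have hpA : A.valuation ((P.p : ℕ) : Qbar) < 1 :=
    Fermat.Agent.S05.H15.valuation_lt_one_of_mem_nonunits hA
  have hΔ : P.freyCurve.Δ ≠ 0 := by
    rw [← Fermat.Agent.S04.H59.freyCurveInt_map P, WeierstrassCurve.map_Δ]
    simpa using Fermat.Agent.S04.H59.freyCurveInt_Δ_ne_zero P
  have hdim : Module.finrank (ZMod P.p) (Vp P) = 2 :=
    Fermat.Agent.Lib.EllFinite.H46.finrank_torsionBy_rat P.freyCurve hΔ P.p
  refine ⟨hdim, ?_⟩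
  obtain ⟨e, c, he, hyp, heA, hc, hb2⟩ := arith_pp P hdvd A hA
  have hvc := Fermat.Agent.S05.H14.isVarChange_modelOf (L := Qbar) P.freyCurve rfl rfl rfl e he
  -- equivariance of the variable change
  have hΦσ : ∀ (σ : Gal) (Q : (P.freyCurve⁄Qbar).Point),
      hvc.addEquiv (σ • Q) = σ • hvc.addEquiv Q := by
    intro σ Q
    rcases Q with _ | ⟨X, Y, hXY⟩
    · rfl
    · rw [WeierstrassCurve.Affine.Point.algEquiv_smul_def, Affine.Point.map_some,
        hvc.addEquiv_some, hvc.addEquiv_some,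
        WeierstrassCurve.Affine.Point.algEquiv_smul_def, Affine.Point.map_some]
      apply Fermat.Agent.S05.H14.IsVarChange.some_congr
      · simp only [Fermat.Agent.S05.H14.fx, map_add, map_mul, map_pow, map_ofNat,
          AlgEquiv.coe_toAlgHom, AlgEquiv.commutes]
      · simp only [Fermat.Agent.S05.H14.fy, map_add, map_mul, map_pow, map_ofNat,
          _root_.map_zero, map_one, AlgEquiv.coe_toAlgHom]
  -- comparison of the two kernels of reduction
  have hr : A.valuation (algebraMap ℚ Qbar (-e)) ≤ 1 := by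
    rw [map_neg, Valuation.map_neg]; exact heA
  have hcmp : ∀ Q : (P.freyCurve⁄Qbar).Point,
      Fermat.Agent.S05.InE1 A (hvc.addEquiv Q) ↔ Fermat.Agent.S13.InE1 A Q := by
    intro Q
    rcases Q with _ | ⟨X, Y, hXY⟩
    · exact Iff.rfl
    · rw [hvc.addEquiv_some]
      exact Fermat.Agent.S13.H87.one_lt_val_fx_iff hyp.two hr
  obtain ⟨T, hT, hTσ⟩ := Fermat.Agent.S13.H87.p_kernel P A hA
  have hvp2 : A.valuation ((P.p : ℕ) : Qbar) ^ 2 < 1 := pow_lt_one₀ zero_le hpA two_ne_zero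
  have hb1 : A.valuation ((modelOf P.freyCurve e)⁄Qbar).a₄ < 1 := lt_of_le_of_lt hb2 hvp2
  -- `T ≠ ⊤`
  have hTne : T ≠ ⊤ := by
    intro htop
    obtain ⟨x, y, h, hpt, hx⟩ := Fermat.Agent.Tate.T6.H97.stmt_ROOT Qbar A P.p P.pp hp2 hpA
      ((modelOf P.freyCurve e)⁄Qbar) hyp hb1 hyp.Δ_ne_zero
    obtain ⟨Q, hQdef⟩ : ∃ Q, Q = hvc.addEquiv.symm (Point.some x y h) := ⟨_, rfl⟩
    have hΦQ : hvc.addEquiv Q = Point.some x y h := by
      rw [hQdef, AddEquiv.apply_symm_apply]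
    have hQ : (P.p : ℤ) • Q = 0 := by
      apply hvc.addEquiv.injective
      rw [map_zsmul, hΦQ, natCast_zsmul, hpt, _root_.map_zero]
    have hQmem : Q ∈ Submodule.torsionBy ℤ (P.freyCurve⁄Qbar).Point P.p :=
      (Submodule.mem_torsionBy_iff _ _).2 hQ
    have hmem : (⟨Q, hQmem⟩ : Vp P) ∈ T := by rw [htop]; trivial
    rw [hT] at hmem
    have h2 := (hcmp Q).2 hmem
    rw [hΦQ] at h2
    exact lt_asymm hx h2
  refine ⟨T, hTne, ?_, ?_, ?_⟩
  · -- clause (1): the cyclotomic character on `T`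
    intro σ hσ n hn x hx
    have hdet := Fermat.Agent.L.H52.frey_det_eq_natCast P σ n hn
    have h := apply_eq_det_smul hdim T hTne
      (galoisRepModuleEnd (S := ℚ) (K := AlgebraicClosure ℚ) P.freyCurve.toAffine P.p σ)
      (fun v => by rw [galoisRepModuleEnd_apply]; exact hTσ σ hσ v) hx
    rw [h, hdet]
  · -- clause (2)
    intro σ hσ x
    rw [galoisRepModuleEnd_apply]
    exact hTσ σ hσ x
  · -- clause (3): peu ramifié with `u = 1 + p`
    refine ⟨1 + (P.p : ℤ), ?_, ?_⟩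
    · intro h
      have h1 : (P.p : ℤ) ∣ 1 := (dvd_add_left (dvd_refl (P.p : ℤ))).1 h
      have h2 : P.p ∣ 1 := by exact_mod_cast h1
      exact P.pp.one_lt.ne' (Nat.dvd_one.1 h2)
    · intro σ hσ hζ hω x
      rw [galoisRepModuleEnd_apply]
      apply Subtype.ext
      show σ • (x : (P.freyCurve⁄Qbar).Point) = x
      apply hvc.addEquiv.injective
      rw [hΦσ]
      obtain ⟨hval, hres⟩ := Fermat.Agent.S05.inertia A σ hσ
      have hx : (P.p : ℤ) • (x : (P.freyCurve⁄Qbar).Point) = 0 := by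
        have := x.2
        rwa [Submodule.mem_torsionBy_iff] at this
      have hΦx : P.p • hvc.addEquiv (x : (P.freyCurve⁄Qbar).Point) = 0 := by
        rw [← natCast_zsmul, ← map_zsmul, hx, _root_.map_zero]
      exact core_peu hV1 hV3 hF1 hF2 hF3 hF4 hM hL4 (AlgebraicClosure.isAlgebraic ℚ) A (modelOf P.freyCurve e) hyp
        P.p P.pp hp2 hpA hb2 c hc σ hval hres hζ
        (fun z hz => hω z (by rw [hz]; push_cast; ring)) _ hΦx

end Fermat.Agent.S44.C.H33
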