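/-
Row 38 (S44), package C, leaf M (helper38): the approximate character
`lam = (y - β x)/(y + β x)` on the S05 model `y² = x³ + a x² + b x`, `β² = a`, `|b| < 1`:
`lam` is a unit on `E₀`, `lam (-P) = (lam P)⁻¹`, `|lam - 1| < 1` on `E₁`, and
`|lam (P + Q) - lam P · lam Q| ≤ |b| · |lam Q - 1|` for `P, Q ∈ E₀`.
Plan: NOTES/plan/L_S44_C.md.
-/
import Fermat.Agent.S44.C.Defs2
import Fermat.Agent.S05.H6_M1Cases

set_option autoImplicit false

namespace Fermat.Agent.S44.C.H38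

open WeierstrassCurve WeierstrassCurve.Affine
open Fermat.Agent.S05 (ModelHyp InE0 InE1)

/-! ### Ordered groups with zero -/

section Gen

variable {Γ : Type*} [LinearOrderedCommGroupWithZero Γ]

lemma le_of_sq_le_sq_g {a b : Γ} (h : a ^ 2 ≤ b ^ 2) : a ≤ b := by
  by_contra hc
  have hc := not_le.1 hc
  have : b ^ 2 < a ^ 2 := pow_lt_pow_left₀ hc zero_le (by norm_num)
  exact absurd h (not_le.2 this)

lemma eq_of_sq_eq_sq_g {a b : Γ} (h : a ^ 2 = b ^ 2) : a = b :=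
  le_antisymm (le_of_sq_le_sq_g h.le) (le_of_sq_le_sq_g h.ge)

end Gen

/-! ### Valuations of `y ± β x` on `E₀` -/

section Val

variable {L : Type*} [Field L] {Γ : Type*} [LinearOrderedCommGroupWithZero Γ] (v : Valuation L Γ)

/-- If `s d = x (x² + b)`, `s - d = 2 β x` with `|2 β| = 1`, `|b| < 1 ≤ |x|` then
`|s| = |d|` and `|s|² = |x|³`. -/
lemma val_sd {x b s d c : L} (hx : 1 ≤ v x) (hb : v b < 1) (hc : v c = 1)
    (hprod : s * d = x * (x ^ 2 + b)) (hdiff : s - d = c * x) :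
    v s = v d ∧ v s ^ 2 = v x ^ 3 := by
  have hx0 : 0 < v x := lt_of_lt_of_le zero_lt_one hx
  have hx2 : 1 ≤ v x ^ 2 := one_le_pow₀ hx
  have h1 : v (x ^ 2 + b) = v x ^ 2 := by
    rw [← map_pow]
    refine Valuation.map_add_eq_of_lt_left v ?_
    rw [map_pow]
    exact lt_of_lt_of_le hb hx2
  have hp : v s * v d = v x ^ 3 := by
    rw [← map_mul, hprod, map_mul, h1]; exact (pow_succ' (v x) 2).symm
  have hd : v (s - d) = v x := by rw [hdiff, map_mul, hc, one_mul]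
  have hlt : v x ^ 2 < v x → False := by
    intro h
    have : v x ^ 1 ≤ v x ^ 2 := pow_le_pow_right₀ hx (by norm_num)
    rw [pow_one] at this
    exact absurd h (not_lt.2 this)
  have heq : v s = v d := by
    rcases lt_trichotomy (v s) (v d) with h | h | h
    · exfalso
      have h2 : v (s - d) = v d := Valuation.map_sub_eq_of_lt_right v h
      have h3 : v d = v x := by rw [← h2, hd]
      have h4 : v s = v x ^ 2 := by
        rw [h3] at hp
        have : v s * v x = v x ^ 2 * v x := by rw [hp]; exact pow_succ (v x) 2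
        exact mul_right_cancel₀ hx0.ne' this
      rw [h4, h3] at h
      exact hlt h
    · exact h
    · exfalso
      have h2 : v (s - d) = v s := Valuation.map_sub_eq_of_lt_left v h
      have h3 : v s = v x := by rw [← h2, hd]
      have h4 : v d = v x ^ 2 := by
        rw [h3] at hp
        have : v x * v d = v x * v x ^ 2 := by rw [hp]; exact pow_succ' (v x) 2
        exact mul_left_cancel₀ hx0.ne' this
      rw [h4, h3] at h
      exact hlt h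
  refine ⟨heq, ?_⟩
  rw [sq, ← hp, heq]

end Val

/-! ### The model -/

section Model

variable {L : Type*} [Field L] {A : ValuationSubring L} {W : Affine L}

lemma model_eqn (hyp : ModelHyp A W) {x y : L} (h : W.Nonsingular x y) :
    y ^ 2 = x ^ 3 + W.a₂ * x ^ 2 + W.a₄ * x :=
  (Fermat.Agent.S05.legendre_equation_iff hyp.a₁ hyp.a₃ hyp.a₆ x y).1 h.1

lemma val_four (hyp : ModelHyp A W) : A.valuation (4 : L) = 1 := by
  have : (4 : L) = 2 * 2 := by norm_num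
  rw [this, map_mul, hyp.two, one_mul]

lemma val_a_eq_one (hyp : ModelHyp A W) (hb : A.valuation W.a₄ < 1) :
    A.valuation W.a₂ = 1 := by
  have h4b : A.valuation (4 * W.a₄) < 1 := by
    rw [map_mul, val_four hyp, one_mul]; exact hb
  have h1 : A.valuation (W.a₂ ^ 2) = 1 := by
    have : W.a₂ ^ 2 = (W.a₂ ^ 2 - 4 * W.a₄) + 4 * W.a₄ := by ring
    rw [this, Valuation.map_add_eq_of_lt_left _ (by rw [hyp.disc]; exact h4b), hyp.disc]
  rw [map_pow] at h1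
  exact eq_of_sq_eq_sq_g (by rw [h1, one_pow])

lemma val_beta_eq_one (hyp : ModelHyp A W) (hb : A.valuation W.a₄ < 1) {β : L}
    (hβ : β ^ 2 = W.a₂) : A.valuation β = 1 := by
  have h1 : A.valuation β ^ 2 = 1 := by rw [← map_pow, hβ, val_a_eq_one hyp hb]
  exact eq_of_sq_eq_sq_g (by rw [h1, one_pow])

lemma val_two_beta (hyp : ModelHyp A W) (hb : A.valuation W.a₄ < 1) {β : L}
    (hβ : β ^ 2 = W.a₂) : A.valuation (2 * β) = 1 := by
  rw [map_mul, hyp.two, val_beta_eq_one hyp hb hβ, one_mul]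

/-- On `E₀`: `|y + β x| = |y - β x|` and `|y + β x|² = |x|³`. -/
lemma val_s_d (hyp : ModelHyp A W) (hb : A.valuation W.a₄ < 1) {β : L}
    (hβ : β ^ 2 = W.a₂) {x y : L} (h : W.Nonsingular x y) (hx : 1 ≤ A.valuation x) :
    A.valuation (y + β * x) = A.valuation (y - β * x) ∧
      A.valuation (y + β * x) ^ 2 = A.valuation x ^ 3 := by
  refine val_sd A.valuation hx hb (val_two_beta hyp hb hβ) ?_ (by ring)
  have e := model_eqn hyp h
  linear_combination e - x ^ 2 * hβ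

lemma s_ne_zero (hyp : ModelHyp A W) (hb : A.valuation W.a₄ < 1) {β : L}
    (hβ : β ^ 2 = W.a₂) {x y : L} (h : W.Nonsingular x y) (hx : 1 ≤ A.valuation x) :
    y + β * x ≠ 0 := by
  intro h0
  have h1 := (val_s_d hyp hb hβ h hx).2
  rw [h0, map_zero] at h1
  have hx0 : 0 < A.valuation x := lt_of_lt_of_le zero_lt_one hx
  have : (0 : A.ValueGroup) < A.valuation x ^ 3 := pow_pos hx0 3
  rw [← h1] at this
  simp at this

lemma d_ne_zero (hyp : ModelHyp A W) (hb : A.valuation W.a₄ < 1) {β : L}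
    (hβ : β ^ 2 = W.a₂) {x y : L} (h : W.Nonsingular x y) (hx : 1 ≤ A.valuation x) :
    y - β * x ≠ 0 := by
  intro h0
  have h1 := val_s_d hyp hb hβ h hx
  rw [h0, map_zero] at h1
  have := s_ne_zero hyp hb hβ h hx
  exact this ((map_eq_zero _).1 h1.1)

/-- `lam` is a unit on `E₀`. -/
theorem val_lam_eq_one (hyp : ModelHyp A W) (hb : A.valuation W.a₄ < 1) {β : L}
    (hβ : β ^ 2 = W.a₂) (P : W.Point) (hP : InE0 A P) : A.valuation (lam β P) = 1 := by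
  rcases P with _ | ⟨x, y, h⟩
  · show A.valuation (1 : L) = 1
    exact map_one _
  · have hx : 1 ≤ A.valuation x := hP
    have h1 := val_s_d hyp hb hβ h hx
    have hs := s_ne_zero hyp hb hβ h hx
    rw [lam_some, map_div₀, ← h1.1]
    exact div_self ((map_ne_zero _).2 hs)

/-- `lam (-P) = (lam P)⁻¹`. -/
theorem lam_neg (hyp : ModelHyp A W) (β : L) (P : W.Point) : lam β (-P) = (lam β P)⁻¹ := by
  rcases P with _ | ⟨x, y, h⟩
  · show lam β (-(0 : W.Point)) = (lam β (0 : W.Point))⁻¹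
    simp
  · rw [Point.neg_some, lam_some, lam_some, Fermat.Agent.S05.legendre_negY hyp.a₁ hyp.a₃, inv_div]
    have e1 : -y - β * x = -(y + β * x) := by ring
    have e2 : -y + β * x = -(y - β * x) := by ring
    rw [e1, e2, neg_div_neg_eq]

/-- `lam P - 1 = -(2 β x)/(y + β x)`. -/
lemma lam_sub_one (hyp : ModelHyp A W) (hb : A.valuation W.a₄ < 1) {β : L}
    (hβ : β ^ 2 = W.a₂) {x y : L} (h : W.Nonsingular x y) (hx : 1 ≤ A.valuation x) :
    lam β (Point.some x y h) - 1 = -(2 * β * x) / (y + β * x) := by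
  have hs := s_ne_zero hyp hb hβ h hx
  rw [lam_some]
  field_simp
  ring

/-- On `E₀ \ 0`: `|lam P - 1|² |x| = 1`. -/
lemma val_lam_sub_one_sq (hyp : ModelHyp A W) (hb : A.valuation W.a₄ < 1) {β : L}
    (hβ : β ^ 2 = W.a₂) {x y : L} (h : W.Nonsingular x y) (hx : 1 ≤ A.valuation x) :
    A.valuation (lam β (Point.some x y h) - 1) ^ 2 * A.valuation x = 1 := by
  have h1 := (val_s_d hyp hb hβ h hx).2
  have hs := s_ne_zero hyp hb hβ h hx
  have hx0 : 0 < A.valuation x := lt_of_lt_of_le zero_lt_one hx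
  have hs0 : A.valuation (y + β * x) ≠ 0 := (map_ne_zero _).2 hs
  rw [lam_sub_one hyp hb hβ h hx, map_div₀, Valuation.map_neg, map_mul, val_two_beta hyp hb hβ,
    one_mul, div_pow, h1, div_mul_eq_mul_div, ← pow_succ]
  exact div_self (pow_ne_zero _ hx0.ne')

/-- `|lam - 1| < 1` on `E₁`. -/
theorem val_lam_sub_one_lt (hyp : ModelHyp A W) (hb : A.valuation W.a₄ < 1) {β : L}
    (hβ : β ^ 2 = W.a₂) (P : W.Point) (hP : InE1 A P) : A.valuation (lam β P - 1) < 1 := by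
  rcases P with _ | ⟨x, y, h⟩
  · show A.valuation ((1 : L) - 1) < 1
    rw [sub_self, map_zero]; exact zero_lt_one
  · have hx : 1 < A.valuation x := hP
    have h1 := val_lam_sub_one_sq hyp hb hβ h hx.le
    by_contra hc
    have hc := not_lt.1 hc
    have h2 : 1 ≤ A.valuation (lam β (Point.some x y h) - 1) ^ 2 := one_le_pow₀ hc
    have h3 : 1 < A.valuation (lam β (Point.some x y h) - 1) ^ 2 * A.valuation x := by
      calc (1 : A.ValueGroup) < A.valuation x := hx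
        _ = 1 * A.valuation x := (one_mul _).symm
        _ ≤ _ := mul_le_mul_left h2 _
    rw [h1] at h3
    exact lt_irrefl _ h3

/-- The exact identity behind the multiplicativity of `lam` (line `y = ℓ x + μ`). -/
lemma key_id (a b β ℓ μ x₁ x₂ x₃ y₁ y₂ y₃ : L) (hβ : β ^ 2 = a)
    (e₁ : y₁ = ℓ * x₁ + μ) (e₂ : y₂ = ℓ * x₂ + μ) (e₃ : -y₃ = ℓ * x₃ + μ)
    (V₁ : x₁ + x₂ + x₃ = ℓ ^ 2 - a) (V₂ : x₁ * x₂ + x₁ * x₃ + x₂ * x₃ = b - 2 * ℓ * μ)
    (V₃ : x₁ * x₂ * x₃ = μ ^ 2) :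
    (y₃ - β * x₃) * ((y₁ + β * x₁) * (y₂ + β * x₂))
        - (y₁ - β * x₁) * (y₂ - β * x₂) * (y₃ + β * x₃) = -(4 * b * β * ℓ * μ) := by
  have e₃' : y₃ = -(ℓ * x₃ + μ) := by linear_combination -e₃
  subst e₁ e₂ e₃'
  linear_combination (-(6 * ℓ ^ 2 * β + 2 * β ^ 3)) * V₃ + (-(4 * ℓ * β * μ)) * V₂
    + (-(2 * β * μ ^ 2)) * V₁ + (-(2 * β * μ ^ 2)) * hβ

variable [DecidableEq L]

/-- The affine case of the main estimate. -/
lemma val_lam_add_some (hyp : ModelHyp A W) (hb : A.valuation W.a₄ < 1) {β : L}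
    (hβ : β ^ 2 = W.a₂) {x₁ y₁ x₂ y₂ x₃ y₃ : L} (h₁ : W.Nonsingular x₁ y₁)
    (h₂ : W.Nonsingular x₂ y₂) (h₃ : W.Nonsingular x₃ y₃)
    (hx₁ : 1 ≤ A.valuation x₁) (hx₂ : 1 ≤ A.valuation x₂) (hx₃ : 1 ≤ A.valuation x₃)
    (hadd : Point.some x₁ y₁ h₁ + Point.some x₂ y₂ h₂ = Point.some x₃ y₃ h₃) :
    A.valuation (lam β (Point.some x₃ y₃ h₃)
        - lam β (Point.some x₁ y₁ h₁) * lam β (Point.some x₂ y₂ h₂)) ≤
      A.valuation W.a₄ * A.valuation (lam β (Point.some x₂ y₂ h₂) - 1) := by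
  obtain ⟨ℓ, μ, e₁, e₂, e₃, V₁, V₂, V₃⟩ :=
    Fermat.Agent.S05.line W hyp.a₁ hyp.a₃ hyp.a₆ x₁ y₁ x₂ y₂ x₃ y₃ h₁ h₂ h₃ hadd
  have hs₁ := s_ne_zero hyp hb hβ h₁ hx₁
  have hs₂ := s_ne_zero hyp hb hβ h₂ hx₂
  have hs₃ := s_ne_zero hyp hb hβ h₃ hx₃
  have S₁ := (val_s_d hyp hb hβ h₁ hx₁).2
  have S₂ := (val_s_d hyp hb hβ h₂ hx₂).2
  have S₃ := (val_s_d hyp hb hβ h₃ hx₃).2
  have hU := val_lam_sub_one_sq hyp hb hβ h₂ hx₂
  set E : L := lam β (Point.some x₃ y₃ h₃)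
        - lam β (Point.some x₁ y₁ h₁) * lam β (Point.some x₂ y₂ h₂) with hE
  set U : A.ValueGroup := A.valuation (lam β (Point.some x₂ y₂ h₂) - 1) with hUdef
  -- the exact identity
  have hid : E * ((y₁ + β * x₁) * (y₂ + β * x₂) * (y₃ + β * x₃)) = -(4 * W.a₄ * β * ℓ * μ) := by
    rw [← key_id W.a₂ W.a₄ β ℓ μ x₁ x₂ x₃ y₁ y₂ y₃ hβ e₁ e₂ e₃ V₁ V₂ V₃, hE, lam_some, lam_some,
      lam_some]
    field_simp
  -- notation
  set X₁ := A.valuation x₁
  set X₂ := A.valuation x₂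
  set X₃ := A.valuation x₃
  set T₁ := A.valuation (y₁ + β * x₁)
  set T₂ := A.valuation (y₂ + β * x₂)
  set T₃ := A.valuation (y₃ + β * x₃)
  have hX₁ : 0 < X₁ := lt_of_lt_of_le zero_lt_one hx₁
  have hX₂ : 0 < X₂ := lt_of_lt_of_le zero_lt_one hx₂
  have hX₃ : 0 < X₃ := lt_of_lt_of_le zero_lt_one hx₃
  have c1 : A.valuation E * (T₁ * T₂ * T₃) = A.valuation W.a₄ * (A.valuation ℓ * A.valuation μ) := by
    have := congrArg A.valuation hid
    rw [map_mul, map_mul, map_mul, Valuation.map_neg, map_mul, map_mul, map_mul, map_mul,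
      val_four hyp, val_beta_eq_one hyp hb hβ, one_mul, mul_one] at this
    rw [this, mul_assoc]
  have c3 : A.valuation μ ^ 2 = X₁ * X₂ * X₃ := by
    rw [← map_pow, ← V₃, map_mul, map_mul]
  -- `|ℓ|² ≤ |x₁|² |x₂| |x₃|²`
  have c4 : A.valuation ℓ ^ 2 ≤ X₁ ^ 2 * X₂ * X₃ ^ 2 := by
    have hB1 : (1 : A.ValueGroup) ≤ X₁ ^ 2 := one_le_pow₀ hx₁
    have hB3 : (1 : A.ValueGroup) ≤ X₃ ^ 2 := one_le_pow₀ hx₃
    have b1 : X₁ ≤ X₁ ^ 2 * X₂ * X₃ ^ 2 := by
      calc X₁ = X₁ ^ 1 := (pow_one _).symm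
        _ ≤ X₁ ^ 2 := pow_le_pow_right₀ hx₁ (by norm_num)
        _ ≤ X₁ ^ 2 * X₂ := le_mul_of_one_le_right' hx₂
        _ ≤ X₁ ^ 2 * X₂ * X₃ ^ 2 := le_mul_of_one_le_right' hB3
    have b2 : X₂ ≤ X₁ ^ 2 * X₂ * X₃ ^ 2 := by
      calc X₂ ≤ X₁ ^ 2 * X₂ := le_mul_of_one_le_left' hB1
        _ ≤ X₁ ^ 2 * X₂ * X₃ ^ 2 := le_mul_of_one_le_right' hB3
    have b3 : X₃ ≤ X₁ ^ 2 * X₂ * X₃ ^ 2 := by
      calc X₃ = X₃ ^ 1 := (pow_one _).symm
        _ ≤ X₃ ^ 2 := pow_le_pow_right₀ hx₃ (by norm_num)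
        _ ≤ X₁ ^ 2 * X₂ * X₃ ^ 2 := le_mul_of_one_le_left' (one_le_mul_of_one_le_of_one_le hB1 hx₂)
    have b0 : A.valuation W.a₂ ≤ X₁ ^ 2 * X₂ * X₃ ^ 2 :=
      le_trans hyp.a_le (le_trans hx₂ b2)
    have : ℓ ^ 2 = x₁ + x₂ + x₃ + W.a₂ := by linear_combination -V₁
    rw [← map_pow, this]
    exact Valuation.map_add_le _ (Valuation.map_add_le _ (Valuation.map_add_le _ b1 b2) b3) b0
  -- squares
  have hPi : 0 < (X₁ * X₂ * X₃) ^ 3 * X₂ := mul_pos (pow_pos (mul_pos (mul_pos hX₁ hX₂) hX₃) 3) hX₂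
  refine le_of_sq_le_sq_g ((mul_le_mul_iff_left₀ hPi).1 ?_)
  have l1 : A.valuation E ^ 2 * ((X₁ * X₂ * X₃) ^ 3 * X₂) =
      A.valuation W.a₄ ^ 2 * (A.valuation ℓ ^ 2 * (X₁ * X₂ ^ 2 * X₃)) := by
    have e : (T₁ * T₂ * T₃) ^ 2 = (X₁ * X₂ * X₃) ^ 3 := by
      rw [mul_pow, mul_pow, S₁, S₂, S₃, mul_pow, mul_pow]
    have := congrArg (fun t => t ^ 2 * X₂) c1
    beta_reduce at this
    rw [mul_pow, e] at this
    rw [← mul_assoc, this, mul_pow, mul_pow, c3]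
    simp only [pow_succ, pow_zero, one_mul]
    ac_rfl
  have l2 : (A.valuation W.a₄ * U) ^ 2 * ((X₁ * X₂ * X₃) ^ 3 * X₂) =
      A.valuation W.a₄ ^ 2 * ((X₁ ^ 2 * X₂ * X₃ ^ 2) * (X₁ * X₂ ^ 2 * X₃)) := by
    have : (A.valuation W.a₄ * U) ^ 2 * ((X₁ * X₂ * X₃) ^ 3 * X₂) =
        A.valuation W.a₄ ^ 2 * (X₁ * X₂ * X₃) ^ 3 * (U ^ 2 * X₂) := by
      rw [mul_pow]; ac_rfl
    rw [this, hU, mul_one]
    simp only [pow_succ, pow_zero, one_mul]
    ac_rfl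
  rw [l1, l2]
  gcongr

omit [DecidableEq L] in
/-- `lam` is nonzero on `E₀`. -/
lemma lam_ne_zero (hyp : ModelHyp A W) (hb : A.valuation W.a₄ < 1) {β : L}
    (hβ : β ^ 2 = W.a₂) (P : W.Point) (hP : InE0 A P) : lam β P ≠ 0 := by
  intro h0
  have := val_lam_eq_one hyp hb hβ P hP
  rw [h0, map_zero] at this
  exact zero_ne_one this

/-- **Main estimate**: `|lam (P + Q) - lam P · lam Q| ≤ |b| · |lam Q - 1|` on `E₀`. -/
theorem val_lam_add (hyp : ModelHyp A W) (hb : A.valuation W.a₄ < 1) {β : L}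
    (hβ : β ^ 2 = W.a₂) (P Q : W.Point) (hP : InE0 A P) (hQ : InE0 A Q) :
    A.valuation (lam β (P + Q) - lam β P * lam β Q) ≤
      A.valuation W.a₄ * A.valuation (lam β Q - 1) := by
  have hPQ : InE0 A (P + Q) := Fermat.Agent.S05.H6.M1_E0E0 A W hyp hb P Q hP hQ
  by_cases hP0 : P = 0
  · subst hP0
    rw [zero_add, lam_zero, one_mul, sub_self, map_zero]
    exact zero_le
  by_cases hQ0 : Q = 0
  · subst hQ0
    rw [add_zero, lam_zero, mul_one, sub_self, map_zero]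
    exact zero_le
  by_cases hS0 : P + Q = 0
  · have hQ' : Q = -P := (neg_eq_of_add_eq_zero_right hS0).symm
    rw [hS0, hQ', lam_neg hyp β P, lam_zero, mul_inv_cancel₀ (lam_ne_zero hyp hb hβ P hP), sub_self,
      map_zero]
    exact zero_le
  rcases P with _ | ⟨x₁, y₁, h₁⟩
  · exact absurd rfl hP0
  rcases Q with _ | ⟨x₂, y₂, h₂⟩
  · exact absurd rfl hQ0
  rcases hS : Point.some x₁ y₁ h₁ + Point.some x₂ y₂ h₂ with _ | ⟨x₃, y₃, h₃⟩
  · exact absurd hS hS0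
  rw [hS] at hPQ
  exact val_lam_add_some hyp hb hβ h₁ h₂ h₃ hP hQ hPQ hS

end Model

/-- Leaf **M** of package C. -/
theorem stmt_M : Stmt_M := by
  intro L _ _ A W hyp hb β hβ
  exact ⟨fun P hP => val_lam_eq_one hyp hb hβ P hP, fun P => lam_neg hyp β P,
    fun P hP => val_lam_sub_one_lt hyp hb hβ P hP,
    fun P Q hP hQ => val_lam_add hyp hb hβ P Q hP hQ⟩

end Fermat.Agent.S44.C.H38
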