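/-
Row 38 (S44), package C, leaf L4 (helper38): no small `p`-torsion in `E₁`.
If `|b| < |p| < 1`, `S ∈ E₁`, `p S = O` and `|lam S - 1| ^ (p - 1) < |p|` then `S = O`.
Proof: `|lam (k S) - lam(S)^k| ≤ |b| |δ|`, `δ = lam S - 1` (leaf M); at `k = p` the left side is
`|(1 + δ)^p - 1| = |p| |δ|` (leaf V2).  Plan: NOTES/plan/L_S44_C.md.
-/
import Fermat.Agent.S44.C.H38_M
import Fermat.Agent.S44.C.H01_Val
import Fermat.Agent.S05.H28_E1add

set_option autoImplicit false

namespace Fermat.Agent.S44.C.H38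

open WeierstrassCurve WeierstrassCurve.Affine
open Fermat.Agent.S05 (ModelHyp InE0 InE1)

section L4

variable {L : Type*} [Field L] [DecidableEq L] {A : ValuationSubring L} {W : Affine L}

omit [DecidableEq L] in
lemma inE0_of_inE1 {P : W.Point} (h : InE1 A P) : InE0 A P := by
  rcases P with _ | ⟨x, y, hxy⟩
  · trivial
  · exact le_of_lt (show 1 < A.valuation x from h)

/-- `E₁` is closed under `k • ·`. -/
lemma inE1_nsmul (hyp : ModelHyp A W) {S : W.Point} (hS : InE1 A S) (k : ℕ) :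
    InE1 A (k • S) := by
  induction k with
  | zero => rw [zero_smul]; trivial
  | succ k ih =>
    rw [succ_nsmul]
    exact Fermat.Agent.S05.H28.stmt_E1_add_of Fermat.Agent.S05.line A W hyp _ _ ih hS

/-- `|lam (k S) - lam(S)^k| ≤ |b| |lam S - 1|` for `S ∈ E₁`. -/
lemma val_lam_nsmul (hyp : ModelHyp A W) (hb : A.valuation W.a₄ < 1) {β : L}
    (hβ : β ^ 2 = W.a₂) {S : W.Point} (hS : InE1 A S) (k : ℕ) :
    A.valuation (lam β (k • S) - lam β S ^ k) ≤
      A.valuation W.a₄ * A.valuation (lam β S - 1) := by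
  induction k with
  | zero =>
    rw [zero_smul, lam_zero, pow_zero, sub_self, map_zero]
    exact zero_le
  | succ k ih =>
    have h1 := val_lam_add hyp hb hβ (k • S) S (inE0_of_inE1 (inE1_nsmul hyp hS k))
      (inE0_of_inE1 hS)
    have h2 : A.valuation ((lam β (k • S) - lam β S ^ k) * lam β S) ≤
        A.valuation W.a₄ * A.valuation (lam β S - 1) := by
      rw [map_mul, val_lam_eq_one hyp hb hβ S (inE0_of_inE1 hS), mul_one]
      exact ih
    have e : lam β ((k + 1) • S) - lam β S ^ (k + 1) =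
        (lam β (k • S + S) - lam β (k • S) * lam β S) +
          (lam β (k • S) - lam β S ^ k) * lam β S := by
      rw [succ_nsmul, pow_succ]; ring
    rw [e]
    exact Valuation.map_add_le _ h1 h2

omit [DecidableEq L] in
/-- `lam S ≠ 1` for `S ∈ E₀`, `S ≠ O`. -/
lemma lam_sub_one_ne_zero (hyp : ModelHyp A W) (hb : A.valuation W.a₄ < 1) {β : L}
    (hβ : β ^ 2 = W.a₂) {S : W.Point} (hS : InE0 A S) (hS0 : S ≠ 0) : lam β S - 1 ≠ 0 := by
  rcases S with _ | ⟨x, y, h⟩
  · exact absurd rfl hS0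
  · have hx : 1 ≤ A.valuation x := hS
    have h1 := val_lam_sub_one_sq hyp hb hβ h hx
    intro h0
    rw [h0, map_zero, zero_pow (by norm_num), zero_mul] at h1
    exact zero_ne_one h1

end L4

/-- Leaf **L4** of package C, from leaf V2. -/
theorem stmt_L4_of (hV2 : Stmt_V2) : Stmt_L4 := by
  intro L _ _ A W hyp β hβ p hp hp1 hbp S hS hpS hsmall
  by_contra hS0
  have hb : A.valuation W.a₄ < 1 := lt_trans hbp hp1
  set δ : L := lam β S - 1 with hδ
  have hδ0 : δ ≠ 0 := lam_sub_one_ne_zero hyp hb hβ (inE0_of_inE1 hS) hS0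
  have hδ1 : A.valuation δ < 1 := val_lam_sub_one_lt hyp hb hβ S hS
  have h1 := val_lam_nsmul hyp hb hβ hS p
  rw [hpS, lam_zero] at h1
  have e : lam β S = 1 + δ := by rw [hδ]; ring
  rw [e, Valuation.map_sub_swap, add_sub_cancel_left] at h1
  rw [hV2 L A.ValueGroup A.valuation p hp δ hδ1 hsmall] at h1
  have hδpos : 0 < A.valuation δ := by
    rw [Valuation.pos_iff]; exact hδ0
  have := (mul_le_mul_iff_left₀ hδpos).1 h1
  exact absurd hbp (not_lt.2 this)

/-- Leaf **L4** of package C. -/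
theorem stmt_L4 : Stmt_L4 := stmt_L4_of H01.stmt_V2

end Fermat.Agent.S44.C.H38
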