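/-
Row 38 (S44), package C (helper33): `Fermat.Agent.S44.Stmt_FreyFiniteAtP`, UNCONDITIONAL.
Leaves: V1, V2, V3 (helper1), F1-F4 (helper19), M, L4 (helper38), twist/core/transfer (helper33).
Plan: NOTES/plan/L_S44_C.md.
-/
import Fermat.Agent.S44.C.H33_Final
import Fermat.Agent.S44.C.H01_Val
import Fermat.Agent.S44.C.H19_RatLim
import Fermat.Agent.S44.C.H38_L4

set_option autoImplicit false

namespace Fermat.Agent.S44.C.H33

/-- **Package C**: for a Frey package with `p ∣ abc`, the `p`-torsion of the Frey curve is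
two-dimensional and finite (peu ramifiée) at `p`. -/
theorem stmt_FreyFiniteAtP : Fermat.Agent.S44.Stmt_FreyFiniteAtP :=
  stmt_FreyFiniteAtP_of H01.stmt_V1 H01.stmt_V3 H19.stmt_F1 H19.stmt_F2 H19.stmt_F3 H19.stmt_F4
    H38.stmt_M H38.stmt_L4

end Fermat.Agent.S44.C.H33
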